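import Mathlib
import Fermat.Agent.S59lib.N3.Bound
import Fermat.Agent.S59lib.NumCrit.DiamondMain

/-!
# Project I / HS6 : the congruence module of a lattice whose localisation is free over a complete intersection

`L` a finite free `𝒪`-module with a right-perfect reflexive form `B`; a commutative `𝒪`-algebra `R` acts on `L`
by self-adjoint operators; `χ : R →ₐ 𝒪` a character, `Λ = L[ker χ]` its eigenspace (`eigR χ`).
`Ψ : L →ₗ[R] N` is a localisation at a multiplicative set `S` on which `χ` takes unit values; `R` acts on `N`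
through a surjection `φ : R ↠ T` onto a complete intersection `T` (finite, torsion free, local), `N` is free
over `T`, and `χ = π ∘ φ` for an augmentation `π : T →ₐ 𝒪` with finite cotangent space.  Then

`rank_𝒪 Λ = rank_T N` and `length (L ⧸ (Λ + Λ^⊥)) = rank_T N • length (𝒪 ⧸ η_π)`.

(The quotient `L ⧸ (Λ + Λ^⊥)` is the cokernel of the Gram map of `Λ` (`N3.congEquiv`); the pairing
`L → Hom(Λ, 𝒪)` extends to `N` by the universal property of the localisation, its kernel is `N[Ann 𝔭]`, and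
`Ψ(Λ) = N[𝔭]`; so the cokernel is Diamond's congruence module `N ⧸ (N[𝔭] + N[Ann 𝔭])`, computed in
`NumCrit.length_congModule_of_isCI`.)
-/

set_option autoImplicit false
set_option linter.unusedSectionVars false
set_option linter.style.haveILetI false

noncomputable section

namespace Fermat.Agent.S59lib.Min.HS6

open IsLocalRing Fermat.Agent.S59lib.N3 Fermat.Agent.S59lib.NumCrit

universe u₁ u₂ u₃ u₄ u₅

variable {𝒪 : Type u₁} [CommRing 𝒪] [IsDomain 𝒪] [IsDiscreteValuationRing 𝒪]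
variable {L : Type u₂} [AddCommGroup L] [Module 𝒪 L]
variable {R : Type u₃} [CommRing R] [Algebra 𝒪 R] [Module R L] [IsScalarTower 𝒪 R L]

/-! ### the eigenspace of a character -/

/-- the eigenspace `L[ker χ]` of a character `χ : R →ₐ 𝒪` -/
def eigR (χ : R →ₐ[𝒪] 𝒪) : Submodule 𝒪 L where
  carrier := {x | ∀ r : R, r • x = χ r • x}
  zero_mem' := fun r => by rw [smul_zero, smul_zero]
  add_mem' := fun {x y} hx hy r => by rw [smul_add, hx r, hy r, smul_add]
  smul_mem' := fun c x hx r => by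
    rw [smul_comm r c x, hx r, smul_comm]

theorem mem_eigR {χ : R →ₐ[𝒪] 𝒪} {x : L} : x ∈ eigR (L := L) χ ↔ ∀ r : R, r • x = χ r • x :=
  Iff.rfl

theorem mem_eigR_iff_ker {χ : R →ₐ[𝒪] 𝒪} {x : L} :
    x ∈ eigR (L := L) χ ↔ ∀ r : R, χ r = 0 → r • x = 0 := by
  constructor
  · intro h r hr
    rw [h r, hr, zero_smul]
  · intro h r
    have h1 : χ (r - algebraMap 𝒪 R (χ r)) = 0 := by
      rw [map_sub, AlgHom.commutes, Algebra.algebraMap_self_apply, sub_self]
    have h2 := h _ h1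
    rw [sub_smul, algebraMap_smul, sub_eq_zero] at h2
    exact h2

theorem isSat_eigR [Module.IsTorsionFree 𝒪 L] (χ : R →ₐ[𝒪] 𝒪) : IsSat (eigR (L := L) χ) := by
  intro a m ha h r
  have h1 := h r
  rw [smul_comm r a m, smul_comm (χ r) a m] at h1
  exact (smul_right_injective L ha) h1

/-! ### localisations of lattices -/

section Loc

variable {N : Type u₄} [AddCommGroup N] [Module 𝒪 N] [Module R N] [IsScalarTower 𝒪 R N]

/-- an `R`-linear map between `𝒪`-`R`-towers is `𝒪`-linear -/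
theorem map_smul_of_tower' (Ψ : L →ₗ[R] N) (c : 𝒪) (x : L) : Ψ (c • x) = c • Ψ x := by
  rw [← algebraMap_smul R c x, map_smul, algebraMap_smul]

/-- **the kernel of a localisation of a Noetherian lattice is killed by ONE element of `S`** -/
theorem exists_smul_eq_zero_of_map_eq_zero [IsNoetherian 𝒪 L] (S : Submonoid R) (Ψ : L →ₗ[R] N)
    [IsLocalizedModule S Ψ] : ∃ s ∈ S, ∀ x : L, Ψ x = 0 → s • x = 0 := by
  classical
  let K : Submodule 𝒪 L :=
    { carrier := {x | Ψ x = 0}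
      zero_mem' := map_zero Ψ
      add_mem' := fun {x y} hx hy => by
        show Ψ (x + y) = 0
        rw [map_add, hx, hy, add_zero]
      smul_mem' := fun c x hx => by
        show Ψ (c • x) = 0
        rw [map_smul_of_tower', hx, smul_zero] }
  obtain ⟨G, hG⟩ : K.FG := IsNoetherian.noetherian K
  have key : ∀ G' : Finset L, (∀ g ∈ G', Ψ g = 0) → ∃ s ∈ S, ∀ g ∈ G', s • g = 0 := by
    intro G'
    induction G' using Finset.induction_on with
    | empty => exact fun _ => ⟨1, S.one_mem, fun g hg => absurd hg (Finset.notMem_empty g)⟩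
    | insert a G'' ha ih =>
      intro h
      obtain ⟨s, hs, hsG⟩ := ih fun g hg => h g (Finset.mem_insert_of_mem hg)
      have h1 : Ψ a = Ψ 0 := by rw [h a (Finset.mem_insert_self a G''), map_zero]
      obtain ⟨c, hc⟩ := IsLocalizedModule.exists_of_eq (S := S) h1
      rw [smul_zero] at hc
      have hc' : (c : R) • a = 0 := hc
      refine ⟨s * c, S.mul_mem hs c.2, fun g hg => ?_⟩
      rcases Finset.mem_insert.mp hg with rfl | hg
      · rw [mul_smul, hc', smul_zero]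
      · rw [mul_comm, mul_smul, hsG g hg, smul_zero]
  obtain ⟨s, hs, hsG⟩ := key G fun g hg => by
    have : g ∈ K := hG ▸ Submodule.subset_span hg
    exact this
  have hspan : ∀ x ∈ Submodule.span 𝒪 (G : Set L), s • x = 0 := by
    intro x hxK
    induction hxK using Submodule.span_induction with
    | mem g hg => exact hsG g hg
    | zero => exact smul_zero s
    | add a b _ _ ha hb => rw [smul_add, ha, hb, add_zero]
    | smul c a _ ha => rw [smul_comm, ha, smul_zero]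
  refine ⟨s, hs, fun x hx => hspan x ?_⟩
  rw [hG]
  exact hx

end Loc

/-! ### the theorem -/

section Main

variable {N : Type u₄} [AddCommGroup N] [Module 𝒪 N] [Module R N] [IsScalarTower 𝒪 R N]
variable {T : Type u₅} [CommRing T] [IsLocalRing T] [Algebra 𝒪 T] [Module.Finite 𝒪 T]
  [Module.IsTorsionFree 𝒪 T] [Module T N] [IsScalarTower 𝒪 T N]
  [Module.Finite 𝒪 N] [Module.IsTorsionFree 𝒪 N]
variable [Module.Finite 𝒪 L] [Module.Free 𝒪 L]

/-- a right-perfect form on a finite free module is right-nondegenerate -/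
theorem right_nondegenerate_of_perfect {B : L →ₗ[𝒪] L →ₗ[𝒪] 𝒪}
    (hperf : ∀ f : L →ₗ[𝒪] 𝒪, ∃ m, ∀ x, B x m = f x) (m : L) (hm : ∀ x, B x m = 0) : m = 0 := by
  classical
  let bL := Module.Free.chooseBasis 𝒪 L
  have hsurj : Function.Surjective (B.flip : L →ₗ[𝒪] (L →ₗ[𝒪] 𝒪)) := by
    intro f
    obtain ⟨m, hm⟩ := hperf f
    exact ⟨m, LinearMap.ext fun x => by rw [LinearMap.flip_apply, hm]⟩
  have hinj : Function.Injective (B.flip : L →ₗ[𝒪] (L →ₗ[𝒪] 𝒪)) :=
    OrzechProperty.injective_of_surjective_of_injective (bL.toDualEquiv : L →ₗ[𝒪] (L →ₗ[𝒪] 𝒪))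
      B.flip bL.toDualEquiv.injective hsurj
  apply hinj
  rw [map_zero]
  exact LinearMap.ext fun x => by rw [LinearMap.flip_apply, hm, LinearMap.zero_apply]

/-- **The congruence module of a lattice whose localisation is free over a complete intersection.** -/
theorem length_cong_eigR_of_localization {B : L →ₗ[𝒪] L →ₗ[𝒪] 𝒪}
    (hperf : ∀ f : L →ₗ[𝒪] 𝒪, ∃ m, ∀ x, B x m = f x)
    (hrefl : ∀ x y, B x y = 0 → B y x = 0)
    (hadj : ∀ (r : R) (x y : L), B (r • x) y = B x (r • y))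
    (χ : R →ₐ[𝒪] 𝒪) (S : Submonoid R) (hS : ∀ s ∈ S, IsUnit (χ s))
    (Ψ : L →ₗ[R] N) [IsLocalizedModule S Ψ]
    (φ : R →ₐ[𝒪] T) (hφ : Function.Surjective φ) (hφN : ∀ (r : R) (y : N), φ r • y = r • y)
    (π : T →ₐ[𝒪] 𝒪) (hπ : ∀ r, π (φ r) = χ r)
    (hCI : IsCI 𝒪 T) {ϖ : 𝒪} (hϖ : Irreducible ϖ)
    (hfin : Module.length 𝒪 (RingHom.ker (π : T →+* 𝒪)).Cotangent ≠ ⊤)
    {ι : Type*} [Fintype ι] (b : Module.Basis ι T N) :
    Module.finrank 𝒪 (eigR (L := L) χ) = Fintype.card ι ∧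
    Module.length 𝒪 (L ⧸ (eigR (L := L) χ ⊔ rorth B (eigR (L := L) χ))) =
      Fintype.card ι • Module.length 𝒪 (𝒪 ⧸ congIdeal π) := by
  classical
  haveI : IsNoetherian 𝒪 L := isNoetherian_of_isNoetherianRing_of_finite 𝒪 L
  set Λ : Submodule 𝒪 L := eigR (L := L) χ with hΛ
  have hsat : IsSat Λ := isSat_eigR χ
  have hnd := right_nondegenerate_of_perfect hperf
  -- the Gorenstein generator
  obtain ⟨hlen, e₀, hG⟩ := length_cotangent_of_isCI hCI π hϖ hfin
  have hAnn := hG.isAnnGen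
  -- `R` acts on `N[𝔭]` through `χ`
  have hscalT : ∀ y ∈ augTorsion π N, ∀ t : T, t • y = π t • y := by
    intro y hy t
    have h1 : π (t - algebraMap 𝒪 T (π t)) = 0 := by
      rw [map_sub, AlgHom.commutes, Algebra.algebraMap_self_apply, sub_self]
    have h2 := hy _ h1
    rw [sub_smul, algebraMap_smul, sub_eq_zero] at h2
    exact h2
  have hscalR : ∀ y ∈ augTorsion π N, ∀ r : R, r • y = χ r • y := by
    intro y hy r
    rw [← hφN, hscalT y hy, hπ]
  -- `D = Hom(Λ, 𝒪)` with the `R`-module structure through `χ`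
  letI instRD : Module R (Λ →ₗ[𝒪] 𝒪) := Module.compHom (Λ →ₗ[𝒪] 𝒪) (χ : R →+* 𝒪)
  have hRD : ∀ (r : R) (f : Λ →ₗ[𝒪] 𝒪), r • f = χ r • f := fun _ _ => rfl
  let g : L →ₗ[R] (Λ →ₗ[𝒪] 𝒪) :=
    { toFun := pairTo B Λ
      map_add' := map_add _
      map_smul' := fun r m => by
        ext x
        rw [RingHom.id_apply, hRD, LinearMap.smul_apply, pairTo_apply, pairTo_apply, ← hadj,
          x.2 r, map_smul, LinearMap.smul_apply] }
  have hg : ∀ m, g m = pairTo B Λ m := fun _ => rfl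
  have hunit : ∀ s : S, IsUnit (algebraMap R (Module.End R (Λ →ₗ[𝒪] 𝒪)) s) := by
    intro s
    obtain ⟨u, hu⟩ := hS s s.2
    rw [Module.End.isUnit_iff]
    refine Function.bijective_iff_has_inverse.mpr ⟨fun f => ((u⁻¹ : 𝒪ˣ) : 𝒪) • f, ?_, ?_⟩
    · intro f
      show ((u⁻¹ : 𝒪ˣ) : 𝒪) • ((s : R) • f) = f
      rw [hRD, ← hu, smul_smul, Units.inv_mul, one_smul]
    · intro f
      show (s : R) • (((u⁻¹ : 𝒪ˣ) : 𝒪) • f) = f
      rw [hRD, ← hu, smul_smul, Units.mul_inv, one_smul]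
  let PN : N →ₗ[R] (Λ →ₗ[𝒪] 𝒪) := IsLocalizedModule.lift S Ψ g hunit
  have hPN : ∀ m, PN (Ψ m) = pairTo B Λ m := fun m => IsLocalizedModule.lift_apply S Ψ g hunit m
  have hPN𝒪 : ∀ (c : 𝒪) (y : N), PN (c • y) = c • PN y := fun c y => by
    rw [← algebraMap_smul R c y, map_smul, hRD, AlgHom.commutes, Algebra.algebraMap_self_apply]
  let PN' : N →ₗ[𝒪] (Λ →ₗ[𝒪] 𝒪) :=
    { toFun := PN
      map_add' := map_add PN
      map_smul' := hPN𝒪 }
  have hPNT : ∀ (t : T) (y : N), PN (t • y) = π t • PN y := fun t y => by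
    obtain ⟨r, rfl⟩ := hφ t
    rw [hφN, map_smul, hRD, hπ]
  have hPNsurj : Function.Surjective PN := by
    intro f
    obtain ⟨m, rfl⟩ := pairTo_surjective hperf hsat f
    exact ⟨Ψ m, hPN m⟩
  -- `Ψ(Λ) = N[𝔭]`
  obtain ⟨s₀, hs₀S, hs₀⟩ := exists_smul_eq_zero_of_map_eq_zero (𝒪 := 𝒪) S Ψ
  have hΨΛ : ∀ x ∈ Λ, Ψ x ∈ augTorsion π N := by
    intro x hx t ht
    obtain ⟨r, rfl⟩ := hφ t
    rw [hφN, ← map_smul, hx r, ← hπ, ht, zero_smul, map_zero]
  have hΛsurj : ∀ y ∈ augTorsion π N, ∃ x ∈ Λ, Ψ x = y := by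
    intro y hy
    obtain ⟨⟨x, s⟩, hxs⟩ := IsLocalizedModule.surj S Ψ y
    have hxs' : (s : R) • y = Ψ x := hxs
    obtain ⟨u, hu⟩ := hS (s₀ * s) (S.mul_mem hs₀S s.2)
    have h1 : s₀ • x ∈ Λ := by
      rw [mem_eigR_iff_ker]
      intro r hr
      rw [smul_comm]
      apply hs₀
      rw [map_smul, ← hxs', smul_comm, hscalR y hy r, hr, zero_smul, smul_zero]
    refine ⟨((u⁻¹ : 𝒪ˣ) : 𝒪) • s₀ • x, Λ.smul_mem _ h1, ?_⟩
    rw [map_smul_of_tower', map_smul, ← hxs', ← mul_smul, hscalR y hy, ← hu, smul_smul,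
      Units.inv_mul, one_smul]
  -- an element of `Λ` orthogonal to `Λ` vanishes
  have hΛ0 : ∀ x₀ ∈ Λ, pairTo B Λ x₀ = 0 → x₀ = 0 := by
    intro x₀ hx₀ h0
    apply hnd
    intro m
    apply hrefl
    -- `π e₀ * B x₀ m = B x₀ x_m = 0`
    have h1 : e₀ • Ψ m ∈ augTorsion π N := by
      intro z hz
      rw [← mul_smul, mul_comm, hAnn.mul_eq_zero z hz, zero_smul]
    obtain ⟨xm, hxm, hxmΨ⟩ := hΛsurj _ h1
    have h2 : PN (e₀ • Ψ m) = π e₀ • pairTo B Λ m := by rw [hPNT, hPN]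
    rw [← hxmΨ, hPN] at h2
    have h3 := LinearMap.congr_fun h2 ⟨x₀, hx₀⟩
    rw [pairTo_apply, LinearMap.smul_apply, pairTo_apply, smul_eq_mul] at h3
    have h4 : B xm x₀ = 0 := by
      have := LinearMap.congr_fun h0 ⟨xm, hxm⟩
      rwa [pairTo_apply] at this
    have h5 : B x₀ xm = 0 := hrefl _ _ h4
    rw [h5] at h3
    rcases mul_eq_zero.mp h3.symm with h | h
    · exact absurd h hAnn.aug_ne
    · exact h
  -- the kernel of `PN`
  have hkerPN : ∀ y : N, PN y = 0 ↔ y ∈ annTorsion π N := by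
    intro y
    constructor
    · intro hy t ht
      have h1 : t • y ∈ augTorsion π N := by
        intro z hz
        rw [← mul_smul, mul_comm, ht z hz, zero_smul]
      obtain ⟨x₀, hx₀, hx₀Ψ⟩ := hΛsurj _ h1
      have h2 : pairTo B Λ x₀ = 0 := by
        rw [← hPN, hx₀Ψ, hPNT, hy, smul_zero]
      rw [← hx₀Ψ, hΛ0 x₀ hx₀ h2, map_zero]
    · intro hy
      have h1 : e₀ • y = 0 := hy e₀ hAnn.mul_eq_zero
      have h2 : π e₀ • PN y = 0 := by rw [← hPNT, h1, map_zero]
      ext x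
      have h3 := LinearMap.congr_fun h2 x
      rw [LinearMap.smul_apply, LinearMap.zero_apply, smul_eq_mul] at h3
      rcases mul_eq_zero.mp h3 with h | h
      · exact absurd h hAnn.aug_ne
      · rw [h, LinearMap.zero_apply]
  -- the cokernel of the Gram map is Diamond's congruence module
  let ψ : N →ₗ[𝒪] ((Λ →ₗ[𝒪] 𝒪) ⧸ LinearMap.range (gram B Λ)) :=
    (LinearMap.range (gram B Λ)).mkQ ∘ₗ PN'
  have hψsurj : Function.Surjective ψ := (Submodule.mkQ_surjective _).comp hPNsurj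
  have hψker : LinearMap.ker ψ = augTorsion π N ⊔ annTorsion π N := by
    ext y
    rw [LinearMap.mem_ker, Submodule.mem_sup]
    show (LinearMap.range (gram B Λ)).mkQ (PN y) = 0 ↔ _
    rw [Submodule.mkQ_apply, Submodule.Quotient.mk_eq_zero]
    constructor
    · rintro ⟨x, hx⟩
      refine ⟨Ψ x, hΨΛ x x.2, y - Ψ x, (hkerPN _).mp ?_, by abel⟩
      rw [map_sub, hPN, ← hx]
      exact sub_self _
    · rintro ⟨y₁, hy₁, y₂, hy₂, rfl⟩
      obtain ⟨x, hx, rfl⟩ := hΛsurj y₁ hy₁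
      refine ⟨⟨x, hx⟩, ?_⟩
      rw [map_add, (hkerPN y₂).mpr hy₂, add_zero, hPN]
      rfl
  have e2 : ((Λ →ₗ[𝒪] 𝒪) ⧸ LinearMap.range (gram B Λ)) ≃ₗ[𝒪] congModule π N :=
    ((Submodule.quotEquivOfEq _ _ hψker.symm).trans
      (LinearMap.quotKerEquivOfSurjective ψ hψsurj)).symm
  have h1 := length_congModule_of_isCI hCI π hϖ hfin b
  refine ⟨?_, ?_⟩
  · rw [← h1.2.1]
    -- `Λ ≃ N[𝔭]`
    let ΨΛ : Λ →ₗ[𝒪] augTorsion π N :=
      { toFun := fun x => ⟨Ψ x, hΨΛ x x.2⟩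
        map_add' := fun x y => Subtype.ext (map_add Ψ _ _)
        map_smul' := fun c x => Subtype.ext (map_smul_of_tower' Ψ c x) }
    have hbij : Function.Bijective ΨΛ := by
      constructor
      · rw [← LinearMap.ker_eq_bot, LinearMap.ker_eq_bot']
        intro x hx
        have hx0 : Ψ (x : L) = 0 := congrArg Subtype.val hx
        have h2 := hs₀ _ hx0
        obtain ⟨u, hu⟩ := hS s₀ hs₀S
        rw [x.2 s₀, ← hu] at h2
        apply Subtype.ext
        have h3 : ((u⁻¹ : 𝒪ˣ) : 𝒪) • ((u : 𝒪) • (x : L)) = 0 := by rw [h2, smul_zero]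
        rwa [smul_smul, Units.inv_mul, one_smul] at h3
      · rintro ⟨y, hy⟩
        obtain ⟨x, hx, rfl⟩ := hΛsurj y hy
        exact ⟨⟨x, hx⟩, rfl⟩
    exact (LinearEquiv.ofBijective ΨΛ hbij).finrank_eq
  · rw [(congEquiv hperf hsat).length_eq, e2.length_eq, h1.1, h1.2.2]

end Main

end Fermat.Agent.S59lib.Min.HS6
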