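import Mathlib
import Fermat.Agent.S59lib.Min.HS6.Abs
import Fermat.Agent.S59lib.HS6.Alg

/-!
# Project I / HS6 (II⁺) : the congruence module of the eigenlattice cut out by an idempotent  (helper6)

Setting of `Min/HS6/Abs.lean` (`L` a finite free `𝒪`-lattice with a right-perfect reflexive form `B`, `R` acting
self-adjointly, `Ψ : L → N` a localisation, `N` free over a complete intersection `T`, `χ = π ∘ φ`), and in addition
a self-adjoint idempotent `ε : L → L` commuting with `R`.  Then for `Λ' := eigR χ ⊓ range ε`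

`length (L ⧸ (Λ' + Λ'^⊥)) = rank_𝒪 Λ' • length (𝒪 ⧸ η_π)`.

Proof: `ε` localises to an idempotent `ε_N` of `N`, `T`-linear; `N' = ε_N N` is a direct summand of the free
`T`-module `N`, hence free (`T` local); `Ψ : ε L → ε_N N` is again a localisation (`isLocalizedModule_of_idem`);
the restricted form on `ε L` is right-perfect (helper4's `HS6.resForm_right_perfect`); apply
`length_cong_eigR_of_localization` to `ε L` and transfer back with helper4's `HS6.length_cong_idem`.
-/

set_option autoImplicit false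
set_option linter.unusedSectionVars false
set_option linter.unusedVariables false
set_option linter.style.haveILetI false

noncomputable section

namespace Fermat.Agent.S59lib.Min.HS6

open IsLocalRing Fermat.Agent.S59lib.N3 Fermat.Agent.S59lib.NumCrit

universe u₁ u₂ u₃ u₄ u₅ v₁ v₂

/-! ### localisation of a direct summand -/

section Summand

variable {R : Type u₃} [CommRing R] (S : Submonoid R)
  {L : Type u₂} [AddCommGroup L] [Module R L] {N : Type u₄} [AddCommGroup N] [Module R N]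
  {L₁ : Type v₁} [AddCommGroup L₁] [Module R L₁] {N₁ : Type v₂} [AddCommGroup N₁] [Module R N₁]

/-- **the localisation of a direct summand**: if `Ψ : L → N` is a localisation at `S`, `e`, `e_N` are compatible
idempotents of `L`, `N`, and `i : L₁ ↪ L`, `j : N₁ ↪ N` identify `L₁`, `N₁` with their ranges, then the induced map
`Ψ₁ : L₁ → N₁` is a localisation at `S`. -/
theorem isLocalizedModule_of_idem (Ψ : L →ₗ[R] N) [IsLocalizedModule S Ψ]
    (e : L →ₗ[R] L) (eN : N →ₗ[R] N) (hcomm : ∀ x, eN (Ψ x) = Ψ (e x))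
    (heN : ∀ y, eN (eN y) = eN y)
    (i : L₁ →ₗ[R] L) (hi : Function.Injective i) (hie : ∀ x, ∃ x₁, i x₁ = e x)
    (j : N₁ →ₗ[R] N) (hj : Function.Injective j) (hje : ∀ y, ∃ y₁, j y₁ = eN y)
    (hjfix : ∀ y₁, eN (j y₁) = j y₁)
    (Ψ₁ : L₁ →ₗ[R] N₁) (hΨ₁ : ∀ x₁, j (Ψ₁ x₁) = Ψ (i x₁)) : IsLocalizedModule S Ψ₁ where
  map_units := by
    intro s
    rw [Module.End.isUnit_iff]
    have hs := (Module.End.isUnit_iff _).mp (IsLocalizedModule.map_units Ψ s)
    constructor
    · intro y y' hyy'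
      apply hj
      apply hs.1
      have := congrArg j hyy'
      simpa only [Module.algebraMap_end_apply, map_smul] using this
    · intro y
      obtain ⟨z, hz⟩ := hs.2 (j y)
      rw [Module.algebraMap_end_apply] at hz
      obtain ⟨y', hy'⟩ := hje z
      refine ⟨y', hj ?_⟩
      rw [Module.algebraMap_end_apply, map_smul, hy', ← map_smul, hz, hjfix]
  surj := by
    intro y
    obtain ⟨⟨x, s⟩, hxs⟩ := IsLocalizedModule.surj S Ψ (j y)
    obtain ⟨x₁, hx₁⟩ := hie x
    refine ⟨⟨x₁, s⟩, hj ?_⟩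
    have h1 : (s : R) • j y = Ψ x := hxs
    show j ((s : R) • y) = j (Ψ₁ x₁)
    rw [map_smul, hΨ₁, hx₁, ← hcomm, ← h1, map_smul, hjfix]
  exists_of_eq := by
    intro x x' hxx'
    have h1 : Ψ (i x) = Ψ (i x') := by rw [← hΨ₁, ← hΨ₁, hxx']
    obtain ⟨c, hc⟩ := IsLocalizedModule.exists_of_eq (S := S) h1
    refine ⟨c, hi ?_⟩
    have hc' : (c : R) • i x = (c : R) • i x' := hc
    show i ((c : R) • x) = i ((c : R) • x')
    rw [map_smul, map_smul, hc']

end Summand

/-! ### the `R`-module structure on the range of an `R`-equivariant `𝒪`-linear map -/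

section RangeModule

variable {𝒪 : Type u₁} [CommRing 𝒪]
variable {L : Type u₂} [AddCommGroup L] [Module 𝒪 L]
variable {R : Type u₃} [CommRing R] [Algebra 𝒪 R] [Module R L] [IsScalarTower 𝒪 R L]
variable (ε : L →ₗ[𝒪] L) (hεR : ∀ (r : R) (x : L), ε (r • x) = r • ε x)

/-- the scalar action of `R` on `range ε` -/
@[reducible] def rangeSMul : SMul R ↥(LinearMap.range ε) :=
  ⟨fun r x => ⟨r • (x : L), by
    obtain ⟨y, hy⟩ := x.2
    exact ⟨r • y, by rw [hεR, hy]⟩⟩⟩

/-- the `R`-module structure on `range ε` -/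
@[reducible] def rangeModule : Module R ↥(LinearMap.range ε) :=
  letI := rangeSMul ε hεR
  Function.Injective.module R (LinearMap.range ε).subtype.toAddMonoidHom Subtype.val_injective
    (fun _ _ => rfl)

theorem rangeModule_coe_smul (r : R) (x : ↥(LinearMap.range ε)) :
    letI := rangeModule ε hεR
    ((r • x : ↥(LinearMap.range ε)) : L) = r • (x : L) := rfl

theorem rangeModule_isScalarTower :
    letI := rangeModule ε hεR
    IsScalarTower 𝒪 R ↥(LinearMap.range ε) :=
  letI := rangeModule ε hεR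
  ⟨fun c r x => Subtype.ext (smul_assoc c r (x : L))⟩

end RangeModule

/-! ### the theorem -/

section Main

variable {𝒪 : Type u₁} [CommRing 𝒪] [IsDomain 𝒪] [IsDiscreteValuationRing 𝒪]
variable {L : Type u₂} [AddCommGroup L] [Module 𝒪 L]
variable {R : Type u₃} [CommRing R] [Algebra 𝒪 R] [Module R L] [IsScalarTower 𝒪 R L]
variable {N : Type u₄} [AddCommGroup N] [Module 𝒪 N] [Module R N] [IsScalarTower 𝒪 R N]
variable {T : Type u₅} [CommRing T] [IsLocalRing T] [Algebra 𝒪 T] [Module.Finite 𝒪 T]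
  [Module.IsTorsionFree 𝒪 T] [Module T N] [IsScalarTower 𝒪 T N]
  [Module.Finite 𝒪 N] [Module.IsTorsionFree 𝒪 N]
variable [Module.Finite 𝒪 L] [Module.Free 𝒪 L]

/-- a direct summand of a finite free module over a local ring is free -/
theorem free_range_of_idem {A : Type*} [CommRing A] [IsLocalRing A] {X : Type*} [AddCommGroup X]
    [Module A X] [Module.Finite A X] [Module.Free A X] (e : X →ₗ[A] X) (he : ∀ x, e (e x) = e x) :
    Module.Free A ↥(LinearMap.range e) := by
  haveI : Module.Projective A ↥(LinearMap.range e) :=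
    Module.Projective.of_split (LinearMap.range e).subtype e.rangeRestrict (by
      ext y
      obtain ⟨z, hz⟩ := y.2
      show e (y : X) = (y : X)
      rw [← hz, he])
  exact Module.free_of_flat_of_isLocalRing

/-- **(II⁺) The congruence module of the eigenlattice cut out by a self-adjoint idempotent.** -/
theorem length_cong_eigR_idem {B : L →ₗ[𝒪] L →ₗ[𝒪] 𝒪}
    (hperf : ∀ f : L →ₗ[𝒪] 𝒪, ∃ m, ∀ x, B x m = f x)
    (hrefl : ∀ x y, B x y = 0 → B y x = 0)
    (hadj : ∀ (r : R) (x y : L), B (r • x) y = B x (r • y))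
    (χ : R →ₐ[𝒪] 𝒪) (S : Submonoid R) (hS : ∀ s ∈ S, IsUnit (χ s))
    (Ψ : L →ₗ[R] N) [IsLocalizedModule S Ψ]
    (φ : R →ₐ[𝒪] T) (hφ : Function.Surjective φ) (hφN : ∀ (r : R) (y : N), φ r • y = r • y)
    (π : T →ₐ[𝒪] 𝒪) (hπ : ∀ r, π (φ r) = χ r)
    (hCI : IsCI 𝒪 T) {ϖ : 𝒪} (hϖ : Irreducible ϖ)
    (hfin : Module.length 𝒪 (RingHom.ker (π : T →+* 𝒪)).Cotangent ≠ ⊤)
    [Module.Free T N]
    (ε : L →ₗ[𝒪] L) (hεR : ∀ (r : R) (x : L), ε (r • x) = r • ε x) (hε : ∀ x, ε (ε x) = ε x)
    (hεadj : ∀ x y, B (ε x) y = B x (ε y)) :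
    Module.length 𝒪 (L ⧸ ((eigR (L := L) χ ⊓ LinearMap.range ε) ⊔
        rorth B (eigR (L := L) χ ⊓ LinearMap.range ε))) =
      Module.finrank 𝒪 ↥(eigR (L := L) χ ⊓ LinearMap.range ε) •
        Module.length 𝒪 (𝒪 ⧸ congIdeal π) := by
  classical
  -- the idempotent as an `R`-linear map, and its localisation
  let εR : L →ₗ[R] L := { toFun := ε, map_add' := map_add ε, map_smul' := fun r x => hεR r x }
  let εN : N →ₗ[R] N := IsLocalizedModule.map S Ψ Ψ εR
  have hεNΨ : ∀ x, εN (Ψ x) = Ψ (ε x) := fun x => IsLocalizedModule.map_apply S Ψ Ψ εR x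
  have hεN : ∀ y, εN (εN y) = εN y := by
    have h1 : εN ∘ₗ εN = εN := by
      apply IsLocalizedModule.ext S Ψ (IsLocalizedModule.map_units Ψ)
      ext x
      rw [LinearMap.comp_apply, LinearMap.comp_apply, LinearMap.comp_apply, hεNΨ, hεNΨ, hε]
    exact fun y => LinearMap.congr_fun h1 y
  have hεNT : ∀ (t : T) (y : N), εN (t • y) = t • εN y := by
    intro t y
    obtain ⟨r, rfl⟩ := hφ t
    rw [hφN, map_smul, hφN]
  let εT : N →ₗ[T] N := { toFun := εN, map_add' := map_add εN, map_smul' := hεNT }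
  have hεT : ∀ y, εT (εT y) = εT y := hεN
  -- `N' = ε_N N`, a free `T`-module
  haveI : Module.Finite T N := Module.Finite.of_restrictScalars_finite 𝒪 T N
  haveI : Module.Free T ↥(LinearMap.range εT) := free_range_of_idem εT hεT
  haveI : Module.Finite T ↥(LinearMap.range εT) := inferInstance
  letI instRN' : Module R ↥(LinearMap.range εT) :=
    Module.compHom ↥(LinearMap.range εT) (φ : R →+* T)
  have hRN' : ∀ (r : R) (y : ↥(LinearMap.range εT)), r • y = φ r • y := fun _ _ => rfl
  haveI : IsScalarTower 𝒪 R ↥(LinearMap.range εT) := ⟨fun c r y => by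
    rw [hRN', hRN', map_smul, smul_assoc]⟩
  haveI : IsNoetherian 𝒪 N := isNoetherian_of_isNoetherianRing_of_finite 𝒪 N
  let ι𝒪 : ↥(LinearMap.range εT) →ₗ[𝒪] N := (LinearMap.range εT).subtype.restrictScalars 𝒪
  have hι𝒪 : Function.Injective ι𝒪 := Subtype.val_injective
  haveI : Module.Finite 𝒪 ↥(LinearMap.range εT) := Module.Finite.of_injective ι𝒪 hι𝒪
  haveI : Module.IsTorsionFree 𝒪 ↥(LinearMap.range εT) :=
    Function.Injective.moduleIsTorsionFree ι𝒪 hι𝒪 (fun c y => map_smul ι𝒪 c y)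
  -- `L₁ = ε L`
  letI instRL₁ : Module R ↥(LinearMap.range ε) := rangeModule ε hεR
  haveI : IsScalarTower 𝒪 R ↥(LinearMap.range ε) := rangeModule_isScalarTower ε hεR
  haveI : Module.Free 𝒪 ↥(LinearMap.range ε) := free_range_of_idem ε hε
  haveI : Module.Finite 𝒪 ↥(LinearMap.range ε) := inferInstance
  -- the restricted localisation
  let Ψ₁ : ↥(LinearMap.range ε) →ₗ[R] ↥(LinearMap.range εT) :=
    { toFun := fun x => ⟨Ψ (x : L), by
        obtain ⟨y, hy⟩ := x.2
        exact ⟨Ψ y, by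
          show εN (Ψ y) = _
          rw [hεNΨ, hy]⟩⟩
      map_add' := fun x y => Subtype.ext (map_add Ψ _ _)
      map_smul' := fun r x => Subtype.ext (by
        show Ψ (r • (x : L)) = φ r • Ψ (x : L)
        rw [map_smul, hφN]) }
  let i : ↥(LinearMap.range ε) →ₗ[R] L :=
    { toFun := Subtype.val, map_add' := fun _ _ => rfl, map_smul' := fun _ _ => rfl }
  let j : ↥(LinearMap.range εT) →ₗ[R] N :=
    { toFun := Subtype.val, map_add' := fun _ _ => rfl
      map_smul' := fun r y => hφN r (y : N) }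
  haveI : IsLocalizedModule S Ψ₁ :=
    isLocalizedModule_of_idem S Ψ εR εN hεNΨ hεN i Subtype.val_injective
      (fun x => ⟨⟨ε x, x, rfl⟩, rfl⟩) j Subtype.val_injective (fun y => ⟨⟨εN y, y, rfl⟩, rfl⟩)
      (fun y₁ => by
        obtain ⟨z, hz⟩ := y₁.2
        show εN (y₁ : N) = (y₁ : N)
        rw [← hz]
        exact hεN z)
      Ψ₁ (fun _ => rfl)
  -- the restricted form
  have hperf₁ := Fermat.Agent.S59lib.HS6.resForm_right_perfect hε hεadj hperf
  have hrefl₁ : ∀ x y : ↥(LinearMap.range ε),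
      Fermat.Agent.S59lib.HS6.resForm B (LinearMap.range ε) x y = 0 →
        Fermat.Agent.S59lib.HS6.resForm B (LinearMap.range ε) y x = 0 :=
    fun x y h => hrefl _ _ h
  have hadj₁ : ∀ (r : R) (x y : ↥(LinearMap.range ε)),
      Fermat.Agent.S59lib.HS6.resForm B (LinearMap.range ε) (r • x) y =
        Fermat.Agent.S59lib.HS6.resForm B (LinearMap.range ε) x (r • y) :=
    fun r x y => hadj r (x : L) (y : L)
  obtain ⟨hrank, hlen⟩ := length_cong_eigR_of_localization (L := ↥(LinearMap.range ε))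
    (N := ↥(LinearMap.range εT)) hperf₁ hrefl₁ hadj₁ χ S hS Ψ₁ φ hφ (fun _ _ => rfl) π hπ hCI hϖ
    hfin (Module.Free.chooseBasis T ↥(LinearMap.range εT))
  -- the eigenlattice of `ε L` is `Λ'`
  have heig : eigR (L := ↥(LinearMap.range ε)) χ =
      (eigR (L := L) χ ⊓ LinearMap.range ε).comap (LinearMap.range ε).subtype := by
    ext x
    rw [Submodule.mem_comap, Submodule.mem_inf, mem_eigR, mem_eigR]
    constructor
    · intro h
      exact ⟨fun r => congrArg Subtype.val (h r), x.2⟩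
    · intro h r
      exact Subtype.ext (h.1 r)
  have hfr : Module.finrank 𝒪 ↥(eigR (L := L) χ ⊓ LinearMap.range ε) =
      Module.finrank 𝒪 ↥(eigR (L := ↥(LinearMap.range ε)) χ) := by
    rw [heig]
    exact (Submodule.comapSubtypeEquivOfLe
      (inf_le_right : eigR (L := L) χ ⊓ LinearMap.range ε ≤ LinearMap.range ε)).finrank_eq.symm
  rw [Fermat.Agent.S59lib.HS6.length_cong_idem hε hεadj _ inf_le_right, ← heig, hlen, hfr, hrank]

end Main

end Fermat.Agent.S59lib.Min.HS6

end
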