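import Mathlib
import Fermat.Agent.S59lib.N3.Step
import Fermat.Agent.S43lib.B2.Bridge.ToB1Triv

/-!
# Project I / HS6 : the lattice `𝒪 ⊗ Hom_par(Γ₀(M), ℤ)` inside `Hom(Γ₀(M), 𝒪)`

* `moToH : MO 𝒪 M →ₗ[𝒪] H (Gamma0 M) 𝒪`, `a ⊗ φ ↦ a • φ`; it intertwines `tO` with `heckeT`
  (`moToH_tO`), it is injective (`moToH_injective`, `𝒪` a domain of characteristic zero) and its range
  contains the parabolic classes (`exists_moToH_eq_of_isParabolicHom`).
* hence `(T_ℓ₀ − 1 − ℓ₀) φ ∈ range moToH` for every `φ` and every prime `ℓ₀ ≡ 1` modulo `M`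
  (`exists_moToH_eq_heckeT_sub`, from the Eisenstein lemma `Bridge.heckeT_sub_isParabolicHom`).
-/

set_option autoImplicit false
set_option linter.unusedSectionVars false
set_option linter.style.haveILetI false

noncomputable section

namespace Fermat.Agent.S59lib.Min.HS6

open CongruenceSubgroup Matrix.SpecialLinearGroup ModularCurve.Period TensorProduct
open Fermat.Agent.S41lib.HC Fermat.Agent.S41lib.BR Fermat.Agent.S16lib.LG Fermat.Agent.S59lib.N3
open Fermat.Agent.S43lib.B2.Bridge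
open scoped MatrixGroups

variable (𝒪 : Type*) [CommRing 𝒪] (M : ℕ) [NeZero M]

/-- the coefficient map `VZ → Hom(Γ₀(M), 𝒪)` -/
def vzToH : ↥(VZ (Gamma0 M)) →ₗ[ℤ] H (Gamma0 M) 𝒪 :=
  (coeff (Gamma0 M) (Int.castAddHom 𝒪)).toIntLinearMap ∘ₗ (VZ (Gamma0 M)).subtype

theorem vzToH_apply (v : ↥(VZ (Gamma0 M))) (γ : Additive ↥(Gamma0 M)) :
    vzToH 𝒪 M v γ = ((v : H (Gamma0 M) ℤ) γ : 𝒪) := rfl

/-- **the comparison map** `𝒪 ⊗ Hom_par(Γ₀(M), ℤ) → Hom(Γ₀(M), 𝒪)` -/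
def moToH : MO 𝒪 M →ₗ[𝒪] H (Gamma0 M) 𝒪 :=
  LinearMap.liftBaseChange 𝒪 (vzToH 𝒪 M)

theorem moToH_tmul (a : 𝒪) (v : ↥(VZ (Gamma0 M))) :
    moToH 𝒪 M (a ⊗ₜ[ℤ] v) = a • vzToH 𝒪 M v :=
  LinearMap.liftBaseChange_tmul _ _ _ _

theorem moToH_tmul_apply (a : 𝒪) (v : ↥(VZ (Gamma0 M))) (γ : Additive ↥(Gamma0 M)) :
    moToH 𝒪 M (a ⊗ₜ[ℤ] v) γ = a * ((v : H (Gamma0 M) ℤ) γ : 𝒪) := by
  rw [moToH_tmul]
  rfl

variable {𝒪 M}

/-! ### equivariance -/

/-- `T_ℓ` on `Hom(Γ₀(M), 𝒪)` is `𝒪`-linear -/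
theorem heckeT_smul {ℓ : ℕ} [Fact ℓ.Prime] (hℓM : ¬ ℓ ∣ M) (a : 𝒪) (φ : H (Gamma0 M) 𝒪) :
    heckeT hℓM 𝒪 (a • φ) = a • heckeT hℓM 𝒪 φ :=
  map_smul ((tData hℓM).opₗ 𝒪 𝒪) a φ

theorem vzToH_tL {ℓ : ℕ} [Fact ℓ.Prime] (hℓ : ℓ.Prime) (hℓM : ¬ ℓ ∣ M) (v : ↥(VZ (Gamma0 M))) :
    vzToH 𝒪 M (tL hℓ hℓM v) = heckeT hℓM 𝒪 (vzToH 𝒪 M v) := by
  show coeff (Gamma0 M) (Int.castAddHom 𝒪) ((tL hℓ hℓM v : ↥(VZ (Gamma0 M))) : H (Gamma0 M) ℤ) =
    heckeT hℓM 𝒪 (coeff (Gamma0 M) (Int.castAddHom 𝒪) (v : H (Gamma0 M) ℤ))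
  rw [tL_coe, heckeT_coeff]

/-- **the comparison map intertwines `T_ℓ`** -/
theorem moToH_tO {ℓ : ℕ} [Fact ℓ.Prime] (hℓ : ℓ.Prime) (hℓM : ¬ ℓ ∣ M) (x : MO 𝒪 M) :
    moToH 𝒪 M (tO 𝒪 hℓ hℓM x) = heckeT hℓM 𝒪 (moToH 𝒪 M x) := by
  induction x using TensorProduct.induction_on with
  | zero => rw [map_zero, map_zero, map_zero]
  | tmul a v => rw [tO_tmul, moToH_tmul, moToH_tmul, heckeT_smul, vzToH_tL]
  | add x y hx hy => rw [map_add, map_add, hx, hy, map_add, map_add]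

/-! ### the range contains the parabolic classes -/

/-- **the parabolic classes with coefficients in `𝒪` are in the range of the comparison map** -/
theorem exists_moToH_eq_of_isParabolicHom [IsDomain 𝒪] [CharZero 𝒪] {φ : H (Gamma0 M) 𝒪}
    (hφ : IsParabolicHom (Gamma0 M) φ) : ∃ x : MO 𝒪 M, moToH 𝒪 M x = φ := by
  classical
  have := Gamma0_fg M
  obtain ⟨T, hT⟩ := (Group.FG.out : (⊤ : Subgroup ↥(Gamma0 M)).FG)
  -- the finitely generated group of values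
  set A₀ : Submodule ℤ 𝒪 :=
    Submodule.span ℤ (Set.range (fun s : ↥T => φ (Additive.ofMul s.1))) with hA₀
  have hfg : A₀.FG := Submodule.fg_span (Set.finite_range _)
  have : Module.Finite ℤ ↥A₀ := Module.Finite.of_fg hfg
  have : Module.Free ℤ ↥A₀ := Module.free_of_finite_type_torsion_free'
  let e := Module.Free.chooseBasis ℤ ↥A₀
  have hval : ∀ a : Additive ↥(Gamma0 M), φ a ∈ A₀ := by
    let K : Subgroup ↥(Gamma0 M) :=
      { carrier := {γ | φ (Additive.ofMul γ) ∈ A₀}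
        mul_mem' := by
          intro a b ha hb
          show φ (Additive.ofMul (a * b)) ∈ A₀
          rw [ofMul_mul, map_add]
          exact A₀.add_mem ha hb
        one_mem' := by
          show φ (Additive.ofMul 1) ∈ A₀
          rw [ofMul_one, map_zero]
          exact A₀.zero_mem
        inv_mem' := by
          intro a ha
          show φ (Additive.ofMul a⁻¹) ∈ A₀
          rw [ofMul_inv, map_neg]
          exact A₀.neg_mem ha }
    have hK : Subgroup.closure (T : Set ↥(Gamma0 M)) ≤ K := by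
      rw [Subgroup.closure_le]
      intro s hs
      exact Submodule.subset_span ⟨⟨s, hs⟩, rfl⟩
    rw [hT] at hK
    intro a
    exact hK (Subgroup.mem_top (Additive.toMul a))
  -- `φ` with values in `A₀`
  let φ₀ : H (Gamma0 M) ↥A₀ :=
    { toFun := fun a => ⟨φ a, hval a⟩
      map_zero' := Subtype.ext (map_zero φ)
      map_add' := fun a b => Subtype.ext (map_add φ a b) }
  have hφ₀ : IsParabolicHom (Gamma0 M) φ₀ := fun γ hγ => Subtype.ext (hφ γ hγ)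
  let w : Module.Free.ChooseBasisIndex ℤ ↥A₀ → ↥(VZ (Gamma0 M)) := fun i =>
    ⟨coeff (Gamma0 M) (e.coord i).toAddMonoidHom φ₀, coeff_isParabolicHom _ _ hφ₀⟩
  refine ⟨∑ i, ((e i : ↥A₀) : 𝒪) ⊗ₜ[ℤ] w i, ?_⟩
  refine AddMonoidHom.ext fun a => ?_
  rw [map_sum, AddMonoidHom.finsetSum_apply]
  simp_rw [moToH_tmul_apply]
  have h1 := e.sum_repr (φ₀ a)
  have h2 : ((∑ i, e.repr (φ₀ a) i • e i : ↥A₀) : 𝒪) = φ a := by rw [h1]; rfl
  rw [← h2, Submodule.coe_sum]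
  refine Finset.sum_congr rfl fun i _ => ?_
  rw [Submodule.coe_smul, zsmul_eq_mul, mul_comm]
  rfl

/-! ### injectivity -/

/-- **the comparison map is injective** -/
theorem moToH_injective [IsDomain 𝒪] [CharZero 𝒪] : Function.Injective (moToH 𝒪 M) := by
  classical
  have := Gamma0_fg M
  obtain ⟨T, hT⟩ := (Group.FG.out : (⊤ : Subgroup ↥(Gamma0 M)).FG)
  -- evaluation at the generators
  let ε : ↥(VZ (Gamma0 M)) →ₗ[ℤ] (↥T → ℤ) :=
    { toFun := fun v t => (v : H (Gamma0 M) ℤ) (Additive.ofMul t.1)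
      map_add' := fun v w => rfl
      map_smul' := fun n v => rfl }
  have hε : Function.Injective ε := by
    rw [← LinearMap.ker_eq_bot, LinearMap.ker_eq_bot']
    intro v hv
    apply Subtype.ext
    refine AddMonoidHom.ext fun a => ?_
    let K : Subgroup ↥(Gamma0 M) :=
      { carrier := {γ | (v : H (Gamma0 M) ℤ) (Additive.ofMul γ) = 0}
        mul_mem' := by
          intro a b ha hb
          show (v : H (Gamma0 M) ℤ) (Additive.ofMul (a * b)) = 0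
          rw [ofMul_mul, map_add, ha, hb, add_zero]
        one_mem' := by
          show (v : H (Gamma0 M) ℤ) (Additive.ofMul 1) = 0
          rw [ofMul_one, map_zero]
        inv_mem' := by
          intro a ha
          show (v : H (Gamma0 M) ℤ) (Additive.ofMul a⁻¹) = 0
          rw [ofMul_inv, map_neg, ha, neg_zero] }
    have hK : Subgroup.closure (T : Set ↥(Gamma0 M)) ≤ K := by
      rw [Subgroup.closure_le]
      intro s hs
      exact congrFun hv ⟨s, hs⟩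
    rw [hT] at hK
    exact hK (Subgroup.mem_top (Additive.toMul a))
  have hflat : Function.Injective (ε.lTensor 𝒪) :=
    Module.Flat.lTensor_preserves_injective_linearMap ε hε
  have key : ∀ (x : MO 𝒪 M) (t : ↥T),
      TensorProduct.piScalarRight ℤ 𝒪 𝒪 ↥T (ε.lTensor 𝒪 x) t =
        moToH 𝒪 M x (Additive.ofMul t.1) := by
    intro x t
    induction x using TensorProduct.induction_on with
    | zero => rw [map_zero, map_zero, map_zero]; rfl
    | tmul a v =>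
      rw [LinearMap.lTensor_tmul, TensorProduct.piScalarRight_apply,
        TensorProduct.piScalarRightHom_tmul, moToH_tmul_apply]
      show ε v t • a = _
      rw [zsmul_eq_mul, mul_comm]
      rfl
    | add x y hx hy =>
      rw [map_add, map_add, Pi.add_apply, hx, hy, map_add]
      rfl
  intro x y hxy
  apply hflat
  apply (TensorProduct.piScalarRight ℤ 𝒪 𝒪 ↥T).injective
  funext t
  rw [key, key, hxy]

/-! ### the Eisenstein operator maps into the range -/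

/-- **`(T_ℓ₀ − 1 − ℓ₀) φ` is in the range of the comparison map** for every prime `ℓ₀ ≡ 1` modulo `M` -/
theorem exists_moToH_eq_heckeT_sub [IsDomain 𝒪] [CharZero 𝒪] {ℓ₀ : ℕ} [Fact ℓ₀.Prime]
    (hℓ₀M : ¬ ℓ₀ ∣ M) (h1 : (M : ℤ) ∣ (ℓ₀ : ℤ) - 1) (φ : H (Gamma0 M) 𝒪) :
    ∃ x : MO 𝒪 M, moToH 𝒪 M x = heckeT hℓ₀M 𝒪 φ - (1 + ℓ₀) • φ :=
  exists_moToH_eq_of_isParabolicHom (heckeT_sub_isParabolicHom hℓ₀M h1 φ)

end Fermat.Agent.S59lib.Min.HS6
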