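import Mathlib
import Fermat.Agent.S59lib.Min.HS6.Phi
import Fermat.Agent.S59lib.HS.Gen
import Fermat.Agent.S43lib.Mod4.HeckeInst
import Fermat.Agent.S43lib.B3.DiamGact

/-!
# Project I / HS6 : the lattice `𝒪 ⊗ Hom_par(Γ₀(M), ℤ)` and the Hecke module `Mod0` of the hub

For a trivial diamond group `G` the cohomology `H¹(Γ₀(M), Reg G 𝒪)` of the level system of `S43lib/B1` is
`Hom(Γ₀(M), 𝒪)` (`hToCoh`, bijective, `T_ℓ`-equivariant, the diamonds act trivially).  The composite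

`moToCoh : MO 𝒪 M → Hom(Γ₀(M), 𝒪) → H¹(Γ₀(M), Reg G 𝒪)`

is linear over the polynomial ring `𝒪[X_i : i ∈ Idx p M]` (acting on `MO 𝒪 M` through `T_ℓ ↦ tO`, diamonds
`↦ 1`), injective, and its cokernel is killed by `X_{ℓ₀} − (1 + ℓ₀)` for every prime `ℓ₀ ≡ 1` modulo `M`.  Hence
for a non-Eisenstein maximal ideal `𝔪` the map `moToMod0 : MO 𝒪 M → Mod0` **is the localisation of `MO 𝒪 M` at
`𝔪`** (`isLocalizedModule_moToMod0`).
-/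

set_option autoImplicit false
set_option linter.unusedSectionVars false
set_option linter.style.haveILetI false

noncomputable section

namespace Fermat.Agent.S59lib.Min.HS6

open CongruenceSubgroup Matrix.SpecialLinearGroup ModularCurve.Period TensorProduct MvPolynomial
open Fermat.Agent.S41lib.HC Fermat.Agent.S41lib.BR Fermat.Agent.S16lib.LG Fermat.Agent.S59lib.N3
open Fermat.Agent.S43lib.B2.Bridge Fermat.Agent.S43lib.B1 Fermat.Agent.S43lib.B3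
open Fermat.Agent.S43lib.Mod4.HO IsLocalRing
open scoped MatrixGroups

/-! ### a general lemma on localisations -/

section General

variable {R : Type*} [CommRing R] (S : Submonoid R)
variable {L C C' : Type*} [AddCommGroup L] [Module R L] [AddCommGroup C] [Module R C]
  [AddCommGroup C'] [Module R C']

/-- an injective map whose cokernel is killed by an element of `S` becomes the localisation map after
composition with a localisation of the target -/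
theorem isLocalizedModule_comp_of_cokernel_killed (Φ : L →ₗ[R] C) (hinj : Function.Injective Φ)
    (s₀ : R) (hs₀ : s₀ ∈ S) (hcok : ∀ c : C, ∃ x : L, Φ x = s₀ • c) (loc : C →ₗ[R] C')
    [IsLocalizedModule S loc] : IsLocalizedModule S (loc ∘ₗ Φ) where
  map_units := IsLocalizedModule.map_units loc
  surj y := by
    obtain ⟨⟨c, s⟩, hcs⟩ := IsLocalizedModule.surj S loc y
    obtain ⟨x, hx⟩ := hcok c
    refine ⟨⟨x, ⟨s₀ * s, S.mul_mem hs₀ s.2⟩⟩, ?_⟩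
    show (s₀ * (s : R)) • y = loc (Φ x)
    have hcs' : (s : R) • y = loc c := hcs
    rw [hx, map_smul, ← hcs', mul_smul]
  exists_of_eq {x₁ x₂} h := by
    obtain ⟨c, hc⟩ := IsLocalizedModule.exists_of_eq (S := S) (f := loc) h
    refine ⟨c, hinj ?_⟩
    have hc' : (c : R) • Φ x₁ = (c : R) • Φ x₂ := hc
    show Φ ((c : R) • x₁) = Φ ((c : R) • x₂)
    rw [map_smul, map_smul, hc']

end General

/-! ### the cohomology of a trivial diamond group -/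

section Triv

variable {𝒪 : Type} [CommRing 𝒪] {M : ℕ} [NeZero M] {G : Type} [CommGroup G] [Subsingleton G]
  (χ : (ZMod M)ˣ →* G)

/-- a trivial group acts trivially on its regular module -/
theorem reg_smul_eq (g : G) (w : Reg G 𝒪) : g • w = w := by
  ext x
  rw [Reg.smul_apply, Subsingleton.elim (g⁻¹ * x) x]

/-- the constant functions -/
def regConst (𝒪 : Type) [CommRing 𝒪] (G : Type) : 𝒪 →ₗ[𝒪] Reg G 𝒪 where
  toFun a := ⟨fun _ => a⟩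
  map_add' _ _ := rfl
  map_smul' _ _ := rfl

@[simp] theorem regConst_apply (a : 𝒪) (x : G) : regConst 𝒪 G a x = a := rfl

/-- homomorphisms as crossed homomorphisms with values in the regular module of a trivial group -/
def hToZ1 : H (Gamma0 M) 𝒪 →ₗ[𝒪] ↥(Z1 (levelPi χ) 𝒪 (Reg G 𝒪)) where
  toFun φ := ⟨fun γ => regConst 𝒪 G (φ (Additive.ofMul γ)), by
    intro γ γ'
    show regConst 𝒪 G (φ (Additive.ofMul (γ * γ'))) =
      regConst 𝒪 G (φ (Additive.ofMul γ)) + levelPi χ γ • regConst 𝒪 G (φ (Additive.ofMul γ'))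
    rw [reg_smul_eq, ofMul_mul, map_add, map_add]⟩
  map_add' φ ψ := by
    apply Subtype.ext
    funext γ
    show regConst 𝒪 G ((φ + ψ) (Additive.ofMul γ)) = _
    rw [AddMonoidHom.add_apply, map_add]
    rfl
  map_smul' c φ := by
    apply Subtype.ext
    funext γ
    show regConst 𝒪 G ((c • φ) (Additive.ofMul γ)) = _
    rw [AddMonoidHom.smul_apply, map_smul]
    rfl

theorem hToZ1_apply (φ : H (Gamma0 M) 𝒪) (γ : ↥(Gamma0 M)) (x : G) :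
    ((hToZ1 χ φ : ↥(Z1 (levelPi χ) 𝒪 (Reg G 𝒪))) : ↥(Gamma0 M) → Reg G 𝒪) γ x =
      φ (Additive.ofMul γ) := rfl

theorem toHomTriv_hToZ1 (φ : H (Gamma0 M) 𝒪) :
    toHomTriv (χ := χ) (R := 𝒪) (W := Reg G 𝒪) reg_smul_eq (hToZ1 χ φ) =
      coeff (Gamma0 M) (regConst 𝒪 G).toAddMonoidHom φ := by
  refine AddMonoidHom.ext fun a => ?_
  rfl

theorem hToZ1_heckeT {ℓ : ℕ} [Fact ℓ.Prime] (hℓ : ¬ ℓ ∣ M) (φ : H (Gamma0 M) 𝒪) :
    hToZ1 χ (heckeT hℓ 𝒪 φ) =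
      heckeZ 𝒪 (Reg G 𝒪) (nData_equi₀ (χ := χ) hℓ) (hToZ1 χ φ) := by
  apply toHomTriv_injective (χ := χ) (R := 𝒪) (W := Reg G 𝒪) reg_smul_eq
  rw [toHomTriv_heckeZ, toHomTriv_hToZ1, toHomTriv_hToZ1, heckeT_coeff]

theorem hToZ1_surjective : Function.Surjective (hToZ1 (𝒪 := 𝒪) χ) := by
  intro z
  refine ⟨AddMonoidHom.mk' (fun a => (z : ↥(Gamma0 M) → Reg G 𝒪) (Additive.toMul a) 1) ?_, ?_⟩
  · intro a b
    show (z : ↥(Gamma0 M) → Reg G 𝒪) (Additive.toMul a * Additive.toMul b) 1 = _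
    rw [z.2, reg_smul_eq]
    rfl
  · apply Subtype.ext
    funext γ
    ext x
    rw [hToZ1_apply, Subsingleton.elim x 1]
    rfl

theorem hToZ1_injective : Function.Injective (hToZ1 (𝒪 := 𝒪) χ) := by
  intro φ ψ h
  refine AddMonoidHom.ext fun a => ?_
  have h1 := congrFun (congrArg Subtype.val h) (Additive.toMul a)
  have h2 := congrArg (fun w : Reg G 𝒪 => w 1) h1
  exact h2

end Triv

/-! ### the level system -/

section Sys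

variable {𝒪 : Type} [CommRing 𝒪] {M : ℕ} [NeZero M] {G : Type} [CommGroup G] [Subsingleton G]
  (χ : (ZMod M)ˣ →* G) {I : Type} (f : I → LvlIdx M)

/-- `Hom(Γ₀(M), 𝒪) → H¹(Γ₀(M), Reg G 𝒪)` -/
def hToCoh : H (Gamma0 M) 𝒪 →ₗ[𝒪] (levelSys χ f).Coh 𝒪 (Reg G 𝒪) :=
  (levelSys χ f).cls 𝒪 (Reg G 𝒪) ∘ₗ hToZ1 χ

theorem hToCoh_apply (φ : H (Gamma0 M) 𝒪) :
    hToCoh χ f φ = (levelSys χ f).cls 𝒪 (Reg G 𝒪) (hToZ1 χ φ) := rfl

theorem hToCoh_surjective : Function.Surjective (hToCoh (𝒪 := 𝒪) χ f) :=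
  ((levelSys χ f).cls_surjective 𝒪 (Reg G 𝒪)).comp (hToZ1_surjective χ)

theorem hToCoh_injective : Function.Injective (hToCoh (𝒪 := 𝒪) χ f) := by
  rw [← LinearMap.ker_eq_bot, LinearMap.ker_eq_bot']
  intro φ hφ
  rw [hToCoh_apply, HeckeSys.cls_eq_zero_iff] at hφ
  obtain ⟨w, hw⟩ := hφ
  apply hToZ1_injective χ
  apply Subtype.ext
  funext γ
  rw [hw γ, reg_smul_eq, sub_self, map_zero]
  rfl

/-- `T_ℓ` on the cohomology is `T_ℓ` on homomorphisms -/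
theorem T_hToCoh_inl (i : I) {ℓ : ℕ} [Fact ℓ.Prime] (hℓ : ¬ ℓ ∣ M)
    (hi : f i = Sum.inl (Sum.inl ⟨ℓ, Fact.out, hℓ⟩)) (φ : H (Gamma0 M) 𝒪) :
    (levelSys χ f).T 𝒪 (Reg G 𝒪) i (hToCoh χ f φ) = hToCoh χ f (heckeT hℓ 𝒪 φ) := by
  rw [levelSys_T_of_eq_inl χ (Reg G 𝒪) f i hℓ hi, hToCoh_apply, hToCoh_apply, hToZ1_heckeT]
  rfl

/-- the diamond operators are trivial -/
theorem T_eq_self_inr (i : I) (u : (ZMod M)ˣ) (hi : f i = Sum.inr u)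
    (c : (levelSys χ f).Coh 𝒪 (Reg G 𝒪)) : (levelSys χ f).T 𝒪 (Reg G 𝒪) i c = c := by
  rw [levelSys_T_of_eq_inr χ (Reg G 𝒪) f i u hi]
  obtain ⟨z, rfl⟩ := (levelSys χ f).cls_surjective 𝒪 (Reg G 𝒪) c
  rw [HeckeSys.map_cls]
  congr 1
  apply Subtype.ext
  funext γ
  show (χ u) • (z : ↥(Gamma0 M) → Reg G 𝒪) γ = _
  rw [reg_smul_eq]

end Sys

/-! ### the polynomial ring acting on `MO 𝒪 M` -/

section Poly

variable (𝒪 : Type) [CommRing 𝒪] (p : ℕ) (M : ℕ) [NeZero M]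

/-- the operators on `MO 𝒪 M`: `T_ℓ` for the primes `ℓ ∤ M p`, the identity for the diamonds -/
def opO : Idx p M → Module.End 𝒪 (MO 𝒪 M) :=
  Sum.elim (fun ℓ => tO 𝒪 ℓ.2.1 ℓ.2.2.1) (fun _ => 1)

theorem opO_inl (ℓ : {ℓ : ℕ // ℓ.Prime ∧ ¬ ℓ ∣ M ∧ ℓ ≠ p}) :
    opO 𝒪 p M (Sum.inl ℓ) = tO 𝒪 ℓ.2.1 ℓ.2.2.1 := rfl

theorem opO_inr (n : {n : ℕ // n.Coprime M}) : opO 𝒪 p M (Sum.inr n) = 1 := rfl

theorem opO_comm (i j : Idx p M) : opO 𝒪 p M i * opO 𝒪 p M j = opO 𝒪 p M j * opO 𝒪 p M i := by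
  rcases i with ℓ | n <;> rcases j with ℓ' | n'
  · exact Fermat.Agent.S59lib.HS.tO_tO_comm ℓ.2.1 ℓ.2.2.1 ℓ'.2.1 ℓ'.2.2.1
  · rw [opO_inr, mul_one, one_mul]
  · rw [opO_inr, mul_one, one_mul]
  · rw [opO_inr, opO_inr]

/-- **the polynomial ring `𝒪[X_i : i ∈ Idx p M]` acts on `MO 𝒪 M`** -/
@[reducible] def moPolyModule : Module (MvPolynomial (Idx p M) 𝒪) (MO 𝒪 M) :=
  Module.compHom _ (polyHom (opO 𝒪 p M) (opO_comm 𝒪 p M)).toRingHom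

end Poly

section Loc

attribute [local instance] moPolyModule

variable {𝒪 : Type} [CommRing 𝒪] (p : ℕ) {M : ℕ} [NeZero M] {G : Type} [CommGroup G]
  [Subsingleton G] (χ : (ZMod M)ˣ →* G)

theorem moPoly_smul (r : MvPolynomial (Idx p M) 𝒪) (x : MO 𝒪 M) :
    r • x = polyHom (opO 𝒪 p M) (opO_comm 𝒪 p M) r x := rfl

instance moPoly_isScalarTower : IsScalarTower 𝒪 (MvPolynomial (Idx p M) 𝒪) (MO 𝒪 M) :=
  ⟨fun c r x => by rw [moPoly_smul, moPoly_smul, map_smul]; rfl⟩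

theorem moPoly_X_inl (ℓ : {ℓ : ℕ // ℓ.Prime ∧ ¬ ℓ ∣ M ∧ ℓ ≠ p}) (x : MO 𝒪 M) :
    (X (Sum.inl ℓ) : MvPolynomial (Idx p M) 𝒪) • x = tO 𝒪 ℓ.2.1 ℓ.2.2.1 x := by
  rw [moPoly_smul, polyHom_X, opO_inl]

theorem moPoly_X_inr (n : {n : ℕ // n.Coprime M}) (x : MO 𝒪 M) :
    (X (Sum.inr n) : MvPolynomial (Idx p M) 𝒪) • x = x := by
  rw [moPoly_smul, polyHom_X, opO_inr, Module.End.one_apply]

theorem moPoly_C (a : 𝒪) (x : MO 𝒪 M) : (C a : MvPolynomial (Idx p M) 𝒪) • x = a • x := by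
  rw [← MvPolynomial.algebraMap_eq, algebraMap_smul]

/-- **the comparison map** `MO 𝒪 M → H¹(Γ₀(M), Reg G 𝒪)`, linear over the polynomial ring -/
def moToCoh : MO 𝒪 M →ₗ[MvPolynomial (Idx p M) 𝒪] (levelSys χ (idx₀ p M)).Coh 𝒪 (Reg G 𝒪) where
  toFun x := hToCoh χ (idx₀ p M) (moToH 𝒪 M x)
  map_add' x y := by rw [map_add, map_add]
  map_smul' r x := by
    rw [RingHom.id_apply, moPoly_smul, HeckeSys.poly_smul]
    refine polyHom_intertwine (opO 𝒪 p M) (opO_comm 𝒪 p M)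
      ((levelSys χ (idx₀ p M)).T 𝒪 (Reg G 𝒪)) ((levelSys χ (idx₀ p M)).T_comm 𝒪 (Reg G 𝒪))
      (hToCoh χ (idx₀ p M) ∘ₗ moToH 𝒪 M) ?_ r x
    intro i x
    rcases i with ℓ | n
    · haveI : Fact ℓ.1.Prime := ⟨ℓ.2.1⟩
      rw [LinearMap.comp_apply, LinearMap.comp_apply, opO_inl, moToH_tO ℓ.2.1 ℓ.2.2.1,
        T_hToCoh_inl χ (idx₀ p M) (Sum.inl ℓ) ℓ.2.2.1 rfl]
    · rw [opO_inr, Module.End.one_apply,
        T_eq_self_inr χ (idx₀ p M) (Sum.inr n) (ZMod.unitOfCoprime n.1 n.2) rfl]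

theorem moToCoh_apply (x : MO 𝒪 M) :
    moToCoh p χ x = hToCoh χ (idx₀ p M) (moToH 𝒪 M x) := rfl

theorem moToCoh_injective [IsDomain 𝒪] [CharZero 𝒪] :
    Function.Injective (moToCoh (𝒪 := 𝒪) p χ) :=
  (hToCoh_injective χ (idx₀ p M)).comp moToH_injective

/-- **the cokernel of the comparison map is Eisenstein** -/
theorem exists_moToCoh_eq_smul [IsDomain 𝒪] [CharZero 𝒪] {ℓ₀ : ℕ} (hℓ₀ : ℓ₀.Prime)
    (hℓ₀M : ¬ ℓ₀ ∣ M) (hℓ₀p : ℓ₀ ≠ p) (h1 : (M : ℤ) ∣ (ℓ₀ : ℤ) - 1)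
    (c : (levelSys χ (idx₀ p M)).Coh 𝒪 (Reg G 𝒪)) :
    ∃ x : MO 𝒪 M, moToCoh p χ x =
      (X (Sum.inl ⟨ℓ₀, hℓ₀, hℓ₀M, hℓ₀p⟩) - C ((1 + ℓ₀ : ℕ) : 𝒪) : MvPolynomial (Idx p M) 𝒪) • c := by
  haveI : Fact ℓ₀.Prime := ⟨hℓ₀⟩
  obtain ⟨φ, rfl⟩ := hToCoh_surjective χ (idx₀ p M) c
  obtain ⟨x, hx⟩ := exists_moToH_eq_heckeT_sub hℓ₀M h1 φ
  refine ⟨x, ?_⟩
  rw [moToCoh_apply, hx, sub_smul, HeckeSys.X_smul, HeckeSys.C_smul,
    T_hToCoh_inl χ (idx₀ p M) (Sum.inl ⟨ℓ₀, hℓ₀, hℓ₀M, hℓ₀p⟩) hℓ₀M rfl, map_sub,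
    ← Nat.cast_smul_eq_nsmul 𝒪, map_smul]

variable [IsLocalRing 𝒪] (t : ℕ → ResidueField 𝒪)

/-- **the comparison map to the Hecke module of the hub** -/
def moToMod0 : MO 𝒪 M →ₗ[MvPolynomial (Idx p M) 𝒪] Mod0 (𝒪 := 𝒪) p χ t :=
  (levelSys χ (idx₀ p M)).loc 𝒪 (Reg G 𝒪) (RingHom.ker (evOf p M (𝒪 := 𝒪) t)) ∘ₗ moToCoh p χ

/-- **`Mod0` is the localisation of `MO 𝒪 M`** at a non-Eisenstein maximal ideal -/
theorem isLocalizedModule_moToMod0 [IsDomain 𝒪] [CharZero 𝒪] {ℓ₀ : ℕ} (hℓ₀ : ℓ₀.Prime)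
    (hℓ₀M : ¬ ℓ₀ ∣ M) (hℓ₀p : ℓ₀ ≠ p) (h1 : (M : ℤ) ∣ (ℓ₀ : ℤ) - 1)
    (hne : t ℓ₀ ≠ ((ℓ₀ + 1 : ℕ) : ResidueField 𝒪)) :
    IsLocalizedModule (RingHom.ker (evOf p M (𝒪 := 𝒪) t)).primeCompl (moToMod0 p χ t) := by
  have hs₀ : (X (Sum.inl ⟨ℓ₀, hℓ₀, hℓ₀M, hℓ₀p⟩) - C ((1 + ℓ₀ : ℕ) : 𝒪) :
      MvPolynomial (Idx p M) 𝒪) ∈ (RingHom.ker (evOf p M (𝒪 := 𝒪) t)).primeCompl := by
    intro hmem
    rw [SetLike.mem_coe, RingHom.mem_ker, map_sub, evOf_X_inl, evOf_C, sub_eq_zero] at hmem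
    apply hne
    rw [hmem, add_comm, map_natCast]
  have hloc : IsLocalizedModule (RingHom.ker (evOf p M (𝒪 := 𝒪) t)).primeCompl
      ((levelSys χ (idx₀ p M)).loc 𝒪 (Reg G 𝒪) (RingHom.ker (evOf p M (𝒪 := 𝒪) t))) :=
    inferInstance
  exact @isLocalizedModule_comp_of_cokernel_killed _ _
    (RingHom.ker (evOf p M (𝒪 := 𝒪) t)).primeCompl _ _ _ _ _ _ _ _ _ (moToCoh p χ)
    (moToCoh_injective p χ) _ hs₀
    (exists_moToCoh_eq_smul p χ hℓ₀ hℓ₀M hℓ₀p h1)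
    ((levelSys χ (idx₀ p M)).loc 𝒪 (Reg G 𝒪) (RingHom.ker (evOf p M (𝒪 := 𝒪) t))) hloc

end Loc

end Fermat.Agent.S59lib.Min.HS6
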