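import Mathlib
import Fermat.Agent.S59lib.Min.HS6.PhiB1
import Fermat.Agent.S59lib.Min.HS6.Idem
import Fermat.Agent.S59lib.HS.Top
import Fermat.Agent.S59lib.Hub.EmptyT

/-!
# Project I / HS6 : the base lower bound of the numerical criterion on the Hecke side

For the hub at `T = ∅` (`Sg : SideGal P ∅`, base bridge `β₀ : T_∅ → 𝕋_∅`), given the three outputs of MIN
(`β₀` bijective, `M0 Sg` free over `T0 Sg`, `T_∅` a complete intersection), an augmentation `π₀ : T_∅ → 𝒪` with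
`π₀ (T_ℓ) = ev ℓ`, and the `U_r`-eigenvalues `ev r` at the kept primes `r ∣ R0` (new at `r`, `ev r ^ 2 = 1`):

`rank (eigO 𝒪 R0 Pd ev) • length (𝒪 ⧸ η_{π₀}) = length (MO 𝒪 R0 ⧸ (eigO + eigO^⊥))`   (`hs6`).
-/

set_option autoImplicit false
set_option linter.unusedSectionVars false
set_option linter.unusedVariables false
set_option linter.style.haveILetI false

noncomputable section

namespace Fermat.Agent.S59lib.Min.HS6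

open CongruenceSubgroup Matrix.SpecialLinearGroup ModularCurve.Period TensorProduct
open Fermat.Agent.S41lib.HC Fermat.Agent.S41lib.BR Fermat.Agent.S16lib.LG Fermat.Agent.S59lib.N3
open Fermat.Agent.S43lib.B2.Bridge Fermat.Agent.S43lib.B1 Fermat.Agent.S43lib.B3
open Fermat.Agent.S43lib.Mod4 Fermat.Agent.S43lib.Mod4.Hub Fermat.Agent.S43lib.Mod4.HO
open Fermat.Agent.S43lib.Loc Fermat.Agent.S59lib.Hub Fermat.Agent.S59lib.NumCrit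
open Fermat.Agent.S59lib.HS IsLocalRing CuspForm
open scoped MatrixGroups

/-! ### torsion freeness of a localisation -/

section TF

variable {𝒪 : Type*} [CommRing 𝒪] [IsDomain 𝒪] {R : Type*} [CommRing R] [Algebra 𝒪 R]
  {L N : Type*} [AddCommGroup L] [Module 𝒪 L] [Module R L] [IsScalarTower 𝒪 R L]
  [AddCommGroup N] [Module 𝒪 N] [Module R N] [IsScalarTower 𝒪 R N]

/-- a localisation of a torsion free lattice is torsion free -/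
theorem isTorsionFree_of_isLocalizedModule (S : Submonoid R) (Ψ : L →ₗ[R] N)
    [IsLocalizedModule S Ψ] [Module.IsTorsionFree 𝒪 L] : Module.IsTorsionFree 𝒪 N := by
  apply Module.IsTorsionFree.of_smul_eq_zero
  intro c y hcy
  by_cases hc : c = 0
  · exact Or.inl hc
  refine Or.inr ?_
  obtain ⟨⟨x, s⟩, hxs⟩ := IsLocalizedModule.surj S Ψ y
  have hxs' : (s : R) • y = Ψ x := hxs
  have h1 : Ψ (c • x) = Ψ 0 := by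
    rw [map_zero, ← algebraMap_smul R c x, map_smul, algebraMap_smul, ← hxs', smul_comm, hcy,
      smul_zero]
  obtain ⟨s', hs'⟩ := IsLocalizedModule.exists_of_eq (S := S) h1
  rw [smul_zero] at hs'
  have hs'' : (s' : R) • c • x = 0 := hs'
  rw [smul_comm] at hs''
  have h2 : (s' : R) • x = 0 := (smul_eq_zero.mp hs'').resolve_left hc
  have h3 : (s' : R) • Ψ x = 0 := by rw [← map_smul, h2, map_zero]
  have h4 : ((s' * s : S) : R) • y = 0 := by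
    rw [Submonoid.coe_mul, mul_smul, hxs', h3]
  exact (IsLocalizedModule.smul_injective Ψ (s' * s))
    (show (s' * s) • y = (s' * s) • (0 : N) from by rw [smul_zero]; exact h4)

end TF

/-! ### the polynomial ring and the Hecke algebra of the base level -/

section Phi0

variable {P : Ctx} (Sg : SideGal P (∅ : Finset ℕ))

/-- the inclusion of the indices -/
def idxU : Idx P.p (M₀ P ∅) → ↥(Set.univ : Set (Idx P.p (M₀ P ∅))) := fun i => ⟨i, Set.mem_univ i⟩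

/-- `𝒪[X_i] → 𝕋_∅` -/
def phi0 : MvPolynomial (Idx P.p (M₀ P ∅)) Sg.𝒪 →ₐ[Sg.𝒪] T0 Sg :=
  ((H0 Sg).heckeMk Set.univ).comp
    ((AbsHecke.symIncl (𝒪 := Sg.𝒪) (G := G₀ P ∅) (Set.univ : Set (Idx P.p (M₀ P ∅)))).comp
      (MvPolynomial.rename (idxU (P := P))))

theorem phi0_X (i : Idx P.p (M₀ P ∅)) :
    phi0 Sg (MvPolynomial.X i) = (H0 Sg).tX Set.univ i (Set.mem_univ i) := by
  unfold phi0
  rw [AlgHom.comp_apply, AlgHom.comp_apply, MvPolynomial.rename_X, AbsHecke.symIncl,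
    MvPolynomial.rename_X]
  rfl

theorem phi0_X_inr (n : {n : ℕ // n.Coprime (M₀ P ∅)}) :
    phi0 Sg (MvPolynomial.X (Sum.inr n)) = 1 := by
  rw [phi0_X]
  have h2 := absLvl_tX_eq_tG (χ₀ P ∅) (idx₀ P.p (M₀ P ∅))
    (evOf P.p (M₀ P ∅) (𝒪 := Sg.𝒪) (tS Sg)) (evOf_C P.p (M₀ P ∅) _) Set.univ
    (Sum.inr n) (Set.mem_univ _) (ZMod.unitOfCoprime n.1 n.2) rfl
  exact h2.trans (tG_eq_one_empty Sg _)

theorem phi0_smul (r : MvPolynomial (Idx P.p (M₀ P ∅)) Sg.𝒪) (y : M0 Sg) :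
    phi0 Sg r • y = r • y := by
  have h1 := (H0 Sg).heckeMk_smul Set.univ
    (AbsHecke.symIncl (𝒪 := Sg.𝒪) (G := G₀ P ∅) (Set.univ : Set (Idx P.p (M₀ P ∅)))
      (MvPolynomial.rename (idxU (P := P)) r)) y
  rw [AbsHecke.symEnd_incl, MvPolynomial.rename_rename] at h1
  have h : (Subtype.val ∘ idxU (P := P)) = id := rfl
  rw [h, MvPolynomial.rename_id] at h1
  exact h1

theorem phi0_surjective : Function.Surjective (phi0 Sg) := by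
  classical
  have key : ∀ s : AbsHecke.Sym Sg.𝒪 (G₀ P ∅) (Set.univ : Set (Idx P.p (M₀ P ∅))),
      (H0 Sg).heckeMk Set.univ s ∈ (phi0 Sg).range := by
    intro s
    induction s using MvPolynomial.induction_on with
    | C a =>
      have : (H0 Sg).heckeMk Set.univ (MvPolynomial.C a) = algebraMap Sg.𝒪 (T0 Sg) a :=
        ((H0 Sg).heckeMk Set.univ).commutes a
      rw [this]
      exact Subalgebra.algebraMap_mem _ a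
    | add s t hs ht =>
      rw [map_add]
      exact Subalgebra.add_mem _ hs ht
    | mul_X s i hs =>
      rw [map_mul]
      refine Subalgebra.mul_mem _ hs ?_
      rcases i with ⟨j, hj⟩ | g
      · exact ⟨MvPolynomial.X j, phi0_X Sg j⟩
      · have h3 : (H0 Sg).heckeMk Set.univ (MvPolynomial.X (Sum.inr g)) = 1 :=
          tG_eq_one_empty Sg g
        rw [h3]
        exact Subalgebra.one_mem _
  intro t
  obtain ⟨s, rfl⟩ := (H0 Sg).heckeMk_surjective Set.univ t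
  exact key s

theorem isUnit_phi0 (hgood0 : (H0 Sg).Good P.p) (s : MvPolynomial (Idx P.p (M₀ P ∅)) Sg.𝒪)
    (hs : evOf P.p (M₀ P ∅) (𝒪 := Sg.𝒪) (tS Sg) s ≠ 0) : IsUnit (phi0 Sg s) := by
  unfold phi0
  rw [AlgHom.comp_apply, AlgHom.comp_apply]
  apply (H0 Sg).isUnit_heckeMk Set.univ hgood0
  rw [AbsHecke.mem_mSym, ← AbsHecke.ev_rename, MvPolynomial.rename_rename]
  have h : (Subtype.val ∘ idxU (P := P)) = id := rfl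
  rw [h, MvPolynomial.rename_id]
  exact hs

end Phi0

/-! ### the base lower bound -/

section Main

attribute [local instance] moPolyModule

variable {P : Ctx} (Sg : SideGal P (∅ : Finset ℕ))

/-- the polynomial ring acts on `MO 𝒪 M` by self-adjoint operators -/
theorem formOw_moPoly_smul {𝒪 : Type} [CommRing 𝒪] (p : ℕ) {M : ℕ} [NeZero M]
    [Fintype (SL(2, ℤ) ⧸ Gamma0 M)] (r : MvPolynomial (Idx p M) 𝒪) (x y : MO 𝒪 M) :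
    formOw 𝒪 M (r • x) y = formOw 𝒪 M x (r • y) := by
  induction r using MvPolynomial.induction_on generalizing x y with
  | C a => rw [moPoly_C, moPoly_C, map_smul, LinearMap.smul_apply, map_smul]
  | add q q' hq hq' => rw [add_smul, add_smul, map_add, LinearMap.add_apply, hq, hq', map_add]
  | mul_X q i hq =>
    have hX : ∀ x y : MO 𝒪 M, formOw 𝒪 M ((MvPolynomial.X i : MvPolynomial (Idx p M) 𝒪) • x) y =
        formOw 𝒪 M x ((MvPolynomial.X i : MvPolynomial (Idx p M) 𝒪) • y) := by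
      intro x y
      rcases i with ℓ | n
      · rw [moPoly_X_inl, moPoly_X_inl, formOw_tO]
      · rw [moPoly_X_inr, moPoly_X_inr]
    rw [mul_smul, hq, hX, ← mul_smul, mul_comm]

/-- **the eigenlattice with the `U_r` kept is the anemic eigenlattice cut out by the idempotent of its local
factor**: if `e` is an idempotent of the full Betti Hecke algebra fixing `eigO` on which every kept `U_r` is the
scalar `ev r`, then `eigR χ ⊓ range e = eigO`. -/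
theorem eigR_inf_range_eq_eigO {𝒪 : Type} [CommRing 𝒪] [IsDomain 𝒪] [IsDiscreteValuationRing 𝒪]
    (p : ℕ) {M : ℕ} [NeZero M] (Pd : ℕ → Prop)
    (hPd : ∀ ℓ : ℕ, ℓ.Prime → ¬ ℓ ∣ M → (Pd ℓ ↔ ℓ = p)) (ev : ℕ → 𝒪)
    (χ : MvPolynomial (Idx p M) 𝒪 →ₐ[𝒪] 𝒪)
    (hχl : ∀ ℓ : {ℓ : ℕ // ℓ.Prime ∧ ¬ ℓ ∣ M ∧ ℓ ≠ p}, χ (MvPolynomial.X (Sum.inl ℓ)) = ev ℓ.1)
    (hχr : ∀ n : {n : ℕ // n.Coprime M}, χ (MvPolynomial.X (Sum.inr n)) = 1)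
    (e : HecA 𝒪 M Pd) (hee : e * e = e) (hex : ∀ x ∈ eigO 𝒪 M Pd ev, e • x = x)
    (hU : ∀ {r : ℕ} (hr : r.Prime) (hrM : r ∣ M) (hPr : ¬ Pd r),
      e * (uA hr hrM hPr - algebraMap 𝒪 (HecA 𝒪 M Pd) (ev r)) = 0) :
    eigR (L := MO 𝒪 M) χ ⊓ LinearMap.range (HecA.val e) = eigO 𝒪 M Pd ev := by
  ext x
  rw [Submodule.mem_inf, mem_eigR, LinearMap.mem_range, mem_eigO]
  constructor
  · rintro ⟨hx1, z, hz⟩
    have hexx : e • x = x := by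
      rw [← hz, ← HecA.smul_def, ← mul_smul, hee]
    refine ⟨fun ℓ hℓ hℓM hP => ?_, fun r hr hrM hP => ?_⟩
    · have hℓp : ℓ ≠ p := fun h => hP ((hPd ℓ hℓ hℓM).mpr h)
      have h1 := hx1 (MvPolynomial.X (Sum.inl ⟨ℓ, hℓ, hℓM, hℓp⟩))
      rw [moPoly_X_inl, hχl] at h1
      exact h1
    · have h1 := hU hr hrM hP
      rw [mul_sub, sub_eq_zero] at h1
      have h2 : (uA hr hrM hP : HecA 𝒪 M Pd) • x = ev r • x := by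
        calc (uA hr hrM hP : HecA 𝒪 M Pd) • x
            = (e * uA hr hrM hP) • x := by rw [mul_comm, mul_smul, hexx]
          _ = (e * algebraMap 𝒪 (HecA 𝒪 M Pd) (ev r)) • x := by rw [h1]
          _ = ev r • x := by rw [mul_comm, mul_smul, hexx, algebraMap_smul]
      exact h2
  · rintro ⟨hT, hUx⟩
    have hxe : x ∈ eigO 𝒪 M Pd ev := ⟨hT, hUx⟩
    refine ⟨fun r => ?_, x, hex x hxe⟩
    induction r using MvPolynomial.induction_on with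
    | C a => rw [moPoly_C, ← MvPolynomial.algebraMap_eq, AlgHom.commutes,
        Algebra.algebraMap_self_apply]
    | add q q' hq hq' => rw [add_smul, hq, hq', map_add, add_smul]
    | mul_X q i hq =>
      have hX : (MvPolynomial.X i : MvPolynomial (Idx p M) 𝒪) • x =
          χ (MvPolynomial.X i) • x := by
        rcases i with ℓ | n
        · rw [moPoly_X_inl, hχl]
          exact hT ℓ.1 ℓ.2.1 ℓ.2.2.1 fun hP => ℓ.2.2.2 ((hPd ℓ.1 ℓ.2.1 ℓ.2.2.1).mp hP)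
        · rw [moPoly_X_inr, hχr, one_smul]
      rw [mul_smul, hX, smul_comm, hq, smul_smul, map_mul, mul_comm]

/-- **the kept `U_r` are scalars on the local factor**, squarefree level -/
theorem idem_mul_uA_sub_of_squarefree {𝒪 : Type} [CommRing 𝒪] [IsDomain 𝒪]
    [IsDiscreteValuationRing 𝒪] [IsAdicComplete (maximalIdeal 𝒪) 𝒪] {M : ℕ} [NeZero M]
    (hsqf : Squarefree M) {S : Set ℕ} {Pd : ℕ → Prop} (h2 : IsUnit (2 : 𝒪))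
    (hS : ∀ q : ℕ, q.Prime → q ∣ M → q ∈ S)
    (hPS₁ : ∀ ℓ : ℕ, ℓ.Prime → ¬ ℓ ∣ M → ℓ ∉ S → ¬ Pd ℓ) (ev : ℕ → 𝒪)
    {y₀ : MO 𝒪 M} (hy₀ : y₀ ∈ eigO 𝒪 M Pd ev) (h0 : y₀ ≠ 0)
    (πA : HecA 𝒪 M Pd →ₐ[𝒪] 𝒪)
    (hπA : ∀ (a : HecA 𝒪 M Pd), ∀ y ∈ eigO 𝒪 M Pd ev, a • y = πA a • y)
    (hone : ∀ (r M' : ℕ) [NeZero M'], r.Prime → M = M' * r → ¬ r ∣ M' → ¬ Pd r →
      ev r * ev r = 1 ∧ ¬ ∃ χ : heckeAlgebra M' 2 S →+* ResidueField 𝒪,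
        ∀ (ℓ : ℕ) (hℓ : ℓ.Prime) (hℓM : ¬ ℓ ∣ M) (hℓM' : ¬ ℓ ∣ M') (hℓS : ℓ ∉ S),
          χ (heckeAlgebra.T hℓ hℓM' hℓS) = residue 𝒪 (ev ℓ))
    {e : HecA 𝒪 M Pd}
    (he1 : algebraMap (HecA 𝒪 M Pd) (Localization.AtPrime (augIdeal πA)) e = 1)
    (he : ∀ k : HecA 𝒪 M Pd,
      algebraMap (HecA 𝒪 M Pd) (Localization.AtPrime (augIdeal πA)) k = 0 → e * k = 0)
    {r : ℕ} (hr : r.Prime) (hrM : r ∣ M) (hPr : ¬ Pd r) :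
    e * (uA hr hrM hPr - algebraMap 𝒪 (HecA 𝒪 M Pd) (ev r)) = 0 := by
  have hur : πA (uA hr hrM hPr) = ev r := eigChar_uA ev hy₀ h0 πA hπA hr hrM hPr
  have hrM2 := hrM
  obtain ⟨M', hM'⟩ := hrM2
  have hM : M = M' * r := by
    rw [hM']
    ring
  have hM0 : NeZero M' := ⟨by
    rintro rfl
    exact (NeZero.ne M) (by rw [hM]; simp)⟩
  have hrM'' : ¬ r ∣ M' := by
    rintro ⟨k, rfl⟩
    have h1 : r * r ∣ M := ⟨k, by rw [hM]; ring⟩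
    exact hr.one_lt.ne' (Nat.isUnit_iff.mp (hsqf r h1))
  obtain ⟨hsq1, hnew⟩ := hone r M' hr hM hrM'' hPr
  have h3 := idem_mul_uA_one_of_eq hr hM hrM'' hrM (hS r hr hrM) hPS₁
    (fun q hq hqM' => hS q hq (hM ▸ Dvd.dvd.mul_right hqM' r)) hPr h2 πA (by
      rintro ⟨χ, hχ⟩
      refine hnew ⟨χ, fun ℓ hℓ hℓM hℓM' hℓS => ?_⟩
      rw [hχ ℓ hℓ hℓM hℓM' hℓS, eigChar_tA ev hy₀ h0 πA hπA])
    (by rw [hur]; exact hsq1) he1 he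
  rw [hur] at h3
  exact h3

set_option maxHeartbeats 1600000 in
set_option synthInstance.maxHeartbeats 400000 in
/-- **the abstract input at the hub**: the anemic character `χ` of the polynomial ring with `χ (T_ℓ) = ev ℓ`, the
non-vanishing of its eigenlattice in `MO 𝒪 R0`, and the congruence module of every piece of it cut out by a
self-adjoint idempotent commuting with the `T_ℓ`. -/
theorem hub_abs (hH : HubHyp Sg) (hgood0 : (H0 Sg).Good P.p)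
    (β₀ : (Sg.F Sg.S (Sg.hgoodS hH.hT)).R →ₐ[Sg.𝒪] T0 Sg) (hβ₀ : Function.Bijective β₀)
    (hTℓ : ∀ (ℓ : ℕ) (hℓ : ℓ.Prime) (hℓN : ¬ ℓ ∣ lvlTw P Sg.S)
      (hℓS : ℓ ∉ (↑(Sg.S ∪ P.Aux) : Set ℕ)) (hi : ℓ.Prime ∧ ¬ ℓ ∣ M₀ P ∅ ∧ ℓ ≠ P.p),
      β₀ (heckeLocal.π _ _ _ _ (heckeAlgebra.T hℓ hℓN hℓS)) =
        (H0 Sg).tX Set.univ (Sum.inl ⟨ℓ, hi⟩) (Set.mem_univ _))
    [hfree : Module.Free (T0 Sg) (M0 Sg)]
    (hCI : IsCI Sg.𝒪 (Sg.F Sg.S (Sg.hgoodS hH.hT)).R)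
    [Module.IsTorsionFree Sg.𝒪 (Sg.F Sg.S (Sg.hgoodS hH.hT)).R]
    (π₀ : (Sg.F Sg.S (Sg.hgoodS hH.hT)).R →ₐ[Sg.𝒪] Sg.𝒪) {ϖ : Sg.𝒪} (hϖ : Irreducible ϖ)
    (hfin : Module.length Sg.𝒪
      (RingHom.ker (π₀ : (Sg.F Sg.S (Sg.hgoodS hH.hT)).R →+* Sg.𝒪)).Cotangent ≠ ⊤)
    (ev : ℕ → Sg.𝒪)
    (hev : ∀ (ℓ : ℕ) (hℓ : ℓ.Prime) (hℓN : ¬ ℓ ∣ lvlTw P Sg.S)
      (hℓS : ℓ ∉ (↑(Sg.S ∪ P.Aux) : Set ℕ)),
      π₀ (heckeLocal.π _ _ _ _ (heckeAlgebra.T hℓ hℓN hℓS)) = ev ℓ)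
    [Fintype (SL(2, ℤ) ⧸ Gamma0 (M₀ P ∅))] :
    ∃ χ : MvPolynomial (Idx P.p (M₀ P ∅)) Sg.𝒪 →ₐ[Sg.𝒪] Sg.𝒪,
      (∀ ℓ : {ℓ : ℕ // ℓ.Prime ∧ ¬ ℓ ∣ M₀ P ∅ ∧ ℓ ≠ P.p},
        χ (MvPolynomial.X (Sum.inl ℓ)) = ev ℓ.1) ∧
      (∀ n : {n : ℕ // n.Coprime (M₀ P ∅)}, χ (MvPolynomial.X (Sum.inr n)) = 1) ∧
      eigR (L := MO Sg.𝒪 (M₀ P ∅)) χ ≠ ⊥ ∧
      ∀ (ε : MO Sg.𝒪 (M₀ P ∅) →ₗ[Sg.𝒪] MO Sg.𝒪 (M₀ P ∅)),
        (∀ (r : MvPolynomial (Idx P.p (M₀ P ∅)) Sg.𝒪) (x : MO Sg.𝒪 (M₀ P ∅)),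
          ε (r • x) = r • ε x) → (∀ x, ε (ε x) = ε x) →
        (∀ x y, formOw Sg.𝒪 (M₀ P ∅) (ε x) y = formOw Sg.𝒪 (M₀ P ∅) x (ε y)) →
        Module.length Sg.𝒪 (MO Sg.𝒪 (M₀ P ∅) ⧸
            ((eigR (L := MO Sg.𝒪 (M₀ P ∅)) χ ⊓ LinearMap.range ε) ⊔
              rorth (formOw Sg.𝒪 (M₀ P ∅)) (eigR (L := MO Sg.𝒪 (M₀ P ∅)) χ ⊓ LinearMap.range ε))) =
          Module.finrank Sg.𝒪 ↥(eigR (L := MO Sg.𝒪 (M₀ P ∅)) χ ⊓ LinearMap.range ε) •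
            Module.length Sg.𝒪 (Sg.𝒪 ⧸ congIdeal π₀) := by
  classical
  haveI : Fact P.p.Prime := P.hpf
  -- the rings
  haveI : Module.Finite Sg.𝒪 (Sg.F Sg.S (Sg.hgoodS hH.hT)).R := by
    show Module.Finite Sg.𝒪
      (heckeLocal (lvlTw P Sg.S) (↑(Sg.S ∪ P.Aux) : Set ℕ) Sg.𝒪 (Sg.D.θ Sg.S (Sg.hgoodS hH.hT)))
    infer_instance
  haveI : Nontrivial (M0 Sg) := hH.nontriv
  haveI : Module.Finite Sg.𝒪 (M0 Sg) := hgood0.fin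
  haveI : IsLocalRing (T0 Sg) := (H0 Sg).isLocalRing_hecke Set.univ hgood0
  let eβ : (Sg.F Sg.S (Sg.hgoodS hH.hT)).R ≃ₐ[Sg.𝒪] T0 Sg := AlgEquiv.ofBijective β₀ hβ₀
  have heβ : ∀ t : T0 Sg, β₀ (eβ.symm t) = t := fun t => eβ.apply_symm_apply t
  -- `T_∅` acts on `M0` through `β₀`
  letI instTeM0 : Module (Sg.F Sg.S (Sg.hgoodS hH.hT)).R (M0 Sg) :=
    Module.compHom (M0 Sg) (β₀ : (Sg.F Sg.S (Sg.hgoodS hH.hT)).R →+* T0 Sg)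
  have hTeM0 : ∀ (t : (Sg.F Sg.S (Sg.hgoodS hH.hT)).R) (y : M0 Sg), t • y = β₀ t • y :=
    fun _ _ => rfl
  haveI : IsScalarTower Sg.𝒪 (Sg.F Sg.S (Sg.hgoodS hH.hT)).R (M0 Sg) :=
    ⟨fun c t y => by rw [hTeM0, hTeM0, map_smul, smul_assoc]⟩
  let φ : MvPolynomial (Idx P.p (M₀ P ∅)) Sg.𝒪 →ₐ[Sg.𝒪] (Sg.F Sg.S (Sg.hgoodS hH.hT)).R :=
    (eβ.symm : T0 Sg →ₐ[Sg.𝒪] (Sg.F Sg.S (Sg.hgoodS hH.hT)).R).comp (phi0 Sg)
  have hφ : Function.Surjective φ := eβ.symm.surjective.comp (phi0_surjective Sg)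
  have hφN : ∀ (r : MvPolynomial (Idx P.p (M₀ P ∅)) Sg.𝒪) (y : M0 Sg), φ r • y = r • y := by
    intro r y
    rw [hTeM0]
    show β₀ (eβ.symm (phi0 Sg r)) • y = r • y
    rw [heβ, phi0_smul]
  let χ : MvPolynomial (Idx P.p (M₀ P ∅)) Sg.𝒪 →ₐ[Sg.𝒪] Sg.𝒪 := π₀.comp φ
  have hχl : ∀ ℓ : {ℓ : ℕ // ℓ.Prime ∧ ¬ ℓ ∣ M₀ P ∅ ∧ ℓ ≠ P.p},
      χ (MvPolynomial.X (Sum.inl ℓ)) = ev ℓ.1 := by
    intro ℓ
    obtain ⟨hℓN, hℓS⟩ := not_mem_of_not_dvd_M₀_empty Sg hH.hT ℓ.2.1 ℓ.2.2.1 ℓ.2.2.2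
    show π₀ (eβ.symm (phi0 Sg (MvPolynomial.X (Sum.inl ℓ)))) = ev ℓ.1
    rw [phi0_X, ← hev ℓ.1 ℓ.2.1 hℓN hℓS, ← hTℓ ℓ.1 ℓ.2.1 hℓN hℓS ℓ.2]
    congr 1
    exact eβ.symm_apply_apply _
  have hχr : ∀ n : {n : ℕ // n.Coprime (M₀ P ∅)}, χ (MvPolynomial.X (Sum.inr n)) = 1 := by
    intro n
    show π₀ (eβ.symm (phi0 Sg (MvPolynomial.X (Sum.inr n)))) = 1
    rw [phi0_X_inr, map_one, map_one]
  -- `M0` is free over `T_∅`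
  haveI : Module.Free (Sg.F Sg.S (Sg.hgoodS hH.hT)).R (M0 Sg) := by
    let b := Module.Free.chooseBasis (T0 Sg) (M0 Sg)
    refine Module.Free.of_basis (ι := Module.Free.ChooseBasisIndex (T0 Sg) (M0 Sg))
      (Module.Basis.mk (v := fun i => b i) ?_ ?_)
    · rw [linearIndependent_iff']
      intro s g hg i hi
      have h1 : ∑ j ∈ s, β₀ (g j) • b j = 0 := hg
      have h2 := linearIndependent_iff'.mp b.linearIndependent s (fun j => β₀ (g j)) h1 i hi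
      exact hβ₀.1 (by rw [h2, map_zero])
    · intro y _
      have h1 := b.mem_span y
      refine Submodule.span_induction (p := fun y _ => y ∈ Submodule.span
        (Sg.F Sg.S (Sg.hgoodS hH.hT)).R (Set.range fun i => b i)) ?_ ?_ ?_ ?_ h1
      · intro z hz
        exact Submodule.subset_span hz
      · exact Submodule.zero_mem _
      · intro z w _ _ hz hw
        exact Submodule.add_mem _ hz hw
      · intro t z _ hz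
        have h3 : t • z = eβ.symm t • z := by rw [hTeM0, heβ]
        rw [h3]
        exact Submodule.smul_mem _ _ hz
  -- the localisation
  obtain ⟨ℓ₀, hℓ₀, hℓ₀S, hℓ₀1, hℓ₀ne⟩ :=
    hH.hne (M₀ P ∅) (Nat.pos_of_ne_zero (NeZero.ne _)) {P.p}
  have hℓ₀p : ℓ₀ ≠ P.p := fun h => hℓ₀S (by rw [h]; exact Finset.mem_singleton_self _)
  have hℓ₀M : ¬ ℓ₀ ∣ M₀ P ∅ := by
    intro h
    have h3 : ℓ₀ ∣ ℓ₀ - 1 := h.trans hℓ₀1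
    have h4 : ℓ₀ ≤ ℓ₀ - 1 := Nat.le_of_dvd (by have := hℓ₀.two_le; omega) h3
    have := hℓ₀.two_le
    omega
  have h1 : ((M₀ P ∅ : ℕ) : ℤ) ∣ (ℓ₀ : ℤ) - 1 := by
    have h3 : ((ℓ₀ - 1 : ℕ) : ℤ) = (ℓ₀ : ℤ) - 1 := by
      have := hℓ₀.two_le
      omega
    rw [← h3]
    exact Int.natCast_dvd_natCast.mpr hℓ₀1
  haveI hloc := isLocalizedModule_moToMod0 P.p (χ₀ P ∅) (tS Sg) hℓ₀ hℓ₀M hℓ₀p h1 hℓ₀ne
  haveI : Module.IsTorsionFree Sg.𝒪 (M0 Sg) :=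
    isTorsionFree_of_isLocalizedModule
      (RingHom.ker (evOf P.p (M₀ P ∅) (𝒪 := Sg.𝒪) (tS Sg))).primeCompl
      (moToMod0 P.p (χ₀ P ∅) (tS Sg))
  have hS : ∀ s ∈ (RingHom.ker (evOf P.p (M₀ P ∅) (𝒪 := Sg.𝒪) (tS Sg))).primeCompl,
      IsUnit (χ s) := by
    intro s hs
    have hs' : evOf P.p (M₀ P ∅) (𝒪 := Sg.𝒪) (tS Sg) s ≠ 0 := fun h => hs (RingHom.mem_ker.mpr h)
    have h3 : IsUnit (phi0 Sg s) := isUnit_phi0 Sg hgood0 s hs'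
    exact (h3.map eβ.symm).map π₀
  have hrefl : ∀ x y : MO Sg.𝒪 (M₀ P ∅), formOw Sg.𝒪 (M₀ P ∅) x y = 0 →
      formOw Sg.𝒪 (M₀ P ∅) y x = 0 := fun x y h => by rw [formOw_swap, h, neg_zero]
  refine ⟨χ, hχl, hχr, ?_, ?_⟩
  · -- the anemic eigenlattice does not vanish
    haveI : Module.Finite (Sg.F Sg.S (Sg.hgoodS hH.hT)).R (M0 Sg) :=
      Module.Finite.of_restrictScalars_finite Sg.𝒪 _ _
    let b := Module.Free.chooseBasis (Sg.F Sg.S (Sg.hgoodS hH.hT)).R (M0 Sg)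
    obtain ⟨hrank, -⟩ := length_cong_eigR_of_localization (B := formOw Sg.𝒪 (M₀ P ∅))
      (rightPerfect_formOw P.hp2 Sg.hp𝒪 (M₀ P ∅)) hrefl (formOw_moPoly_smul P.p) χ
      (RingHom.ker (evOf P.p (M₀ P ∅) (𝒪 := Sg.𝒪) (tS Sg))).primeCompl hS
      (moToMod0 P.p (χ₀ P ∅) (tS Sg)) φ hφ hφN π₀ (fun _ => rfl) hCI hϖ hfin b
    intro hbot
    rw [hbot, finrank_bot] at hrank
    have hempty : IsEmpty (Module.Free.ChooseBasisIndex (Sg.F Sg.S (Sg.hgoodS hH.hT)).R (M0 Sg)) :=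
      Fintype.card_eq_zero_iff.mp hrank.symm
    obtain ⟨y, hy⟩ := exists_ne (0 : M0 Sg)
    apply hy
    apply b.repr.injective
    ext i
    exact (hempty.false i).elim
  · intro ε hεR hε hεadj
    exact length_cong_eigR_idem (B := formOw Sg.𝒪 (M₀ P ∅))
      (rightPerfect_formOw P.hp2 Sg.hp𝒪 (M₀ P ∅)) hrefl (formOw_moPoly_smul P.p) χ
      (RingHom.ker (evOf P.p (M₀ P ∅) (𝒪 := Sg.𝒪) (tS Sg))).primeCompl hS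
      (moToMod0 P.p (χ₀ P ∅) (tS Sg)) φ hφ hφN π₀ (fun _ => rfl) hCI hϖ hfin ε hεR hε hεadj


set_option maxHeartbeats 1600000 in
set_option synthInstance.maxHeartbeats 400000 in
/-- **HS6 at the level `M₀ P ∅`.** -/
theorem hs6_aux (hH : HubHyp Sg) (hgood0 : (H0 Sg).Good P.p)
    (β₀ : (Sg.F Sg.S (Sg.hgoodS hH.hT)).R →ₐ[Sg.𝒪] T0 Sg) (hβ₀ : Function.Bijective β₀)
    (hTℓ : ∀ (ℓ : ℕ) (hℓ : ℓ.Prime) (hℓN : ¬ ℓ ∣ lvlTw P Sg.S)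
      (hℓS : ℓ ∉ (↑(Sg.S ∪ P.Aux) : Set ℕ)) (hi : ℓ.Prime ∧ ¬ ℓ ∣ M₀ P ∅ ∧ ℓ ≠ P.p),
      β₀ (heckeLocal.π _ _ _ _ (heckeAlgebra.T hℓ hℓN hℓS)) =
        (H0 Sg).tX Set.univ (Sum.inl ⟨ℓ, hi⟩) (Set.mem_univ _))
    [hfree : Module.Free (T0 Sg) (M0 Sg)]
    (hCI : IsCI Sg.𝒪 (Sg.F Sg.S (Sg.hgoodS hH.hT)).R)
    [Module.IsTorsionFree Sg.𝒪 (Sg.F Sg.S (Sg.hgoodS hH.hT)).R]
    (π₀ : (Sg.F Sg.S (Sg.hgoodS hH.hT)).R →ₐ[Sg.𝒪] Sg.𝒪) {ϖ : Sg.𝒪} (hϖ : Irreducible ϖ)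
    (hfin : Module.length Sg.𝒪
      (RingHom.ker (π₀ : (Sg.F Sg.S (Sg.hgoodS hH.hT)).R →+* Sg.𝒪)).Cotangent ≠ ⊤)
    (ev : ℕ → Sg.𝒪)
    (hev : ∀ (ℓ : ℕ) (hℓ : ℓ.Prime) (hℓN : ¬ ℓ ∣ lvlTw P Sg.S)
      (hℓS : ℓ ∉ (↑(Sg.S ∪ P.Aux) : Set ℕ)),
      π₀ (heckeLocal.π _ _ _ _ (heckeAlgebra.T hℓ hℓN hℓS)) = ev ℓ)
    [Fintype (SL(2, ℤ) ⧸ Gamma0 (M₀ P ∅))]
    (Pd : ℕ → Prop) (hPd : ∀ ℓ : ℕ, ℓ.Prime → ¬ ℓ ∣ M₀ P ∅ → (Pd ℓ ↔ ℓ = P.p))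
    (hone : ∀ (r M' : ℕ) [NeZero M'], r.Prime → M₀ P ∅ = M' * r → ¬ r ∣ M' → ¬ Pd r →
      ev r * ev r = 1 ∧
      ¬ ∃ χ : heckeAlgebra M' 2 (↑(Sg.S ∪ P.Aux) : Set ℕ) →+* ResidueField Sg.𝒪,
        ∀ (ℓ : ℕ) (hℓ : ℓ.Prime) (hℓM : ¬ ℓ ∣ M₀ P ∅) (hℓM' : ¬ ℓ ∣ M')
          (hℓS : ℓ ∉ (↑(Sg.S ∪ P.Aux) : Set ℕ)),
          χ (heckeAlgebra.T hℓ hℓM' hℓS) = residue Sg.𝒪 (ev ℓ)) :
    Module.finrank Sg.𝒪 (eigO Sg.𝒪 (M₀ P ∅) Pd ev) •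
        Module.length Sg.𝒪 (Sg.𝒪 ⧸ congIdeal π₀) =
      Module.length Sg.𝒪 (MO Sg.𝒪 (M₀ P ∅) ⧸
        (eigO Sg.𝒪 (M₀ P ∅) Pd ev ⊔ rorth (formOw Sg.𝒪 (M₀ P ∅)) (eigO Sg.𝒪 (M₀ P ∅) Pd ev))) := by
  classical
  by_cases hbot : eigO Sg.𝒪 (M₀ P ∅) Pd ev = ⊥
  · have h1 : eigO Sg.𝒪 (M₀ P ∅) Pd ev ⊔
        rorth (formOw Sg.𝒪 (M₀ P ∅)) (eigO Sg.𝒪 (M₀ P ∅) Pd ev) = ⊤ := by
      rw [hbot, bot_sup_eq, eq_top_iff]
      intro m _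
      rw [mem_rorth]
      intro x hx
      rw [(Submodule.mem_bot Sg.𝒪).mp hx, map_zero, LinearMap.zero_apply]
    have h2 : Subsingleton (MO Sg.𝒪 (M₀ P ∅) ⧸ (eigO Sg.𝒪 (M₀ P ∅) Pd ev ⊔
        rorth (formOw Sg.𝒪 (M₀ P ∅)) (eigO Sg.𝒪 (M₀ P ∅) Pd ev))) :=
      Submodule.Quotient.subsingleton_iff.mpr h1
    have h3 : Module.length Sg.𝒪 (MO Sg.𝒪 (M₀ P ∅) ⧸ (eigO Sg.𝒪 (M₀ P ∅) Pd ev ⊔
        rorth (formOw Sg.𝒪 (M₀ P ∅)) (eigO Sg.𝒪 (M₀ P ∅) Pd ev))) = 0 := Module.length_eq_zero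
    rw [h3, hbot, finrank_bot, zero_smul]
  -- the nonzero case
  obtain ⟨y₀, hy₀, h0⟩ := (Submodule.ne_bot_iff _).mp hbot
  obtain ⟨πA, hπA⟩ := exists_eigChar ev hy₀ h0
  obtain ⟨πloc, hloc⟩ := exists_locAug πA
  obtain ⟨e, he1, he⟩ := exists_idem_atPrime (𝒪 := Sg.𝒪) (HecA Sg.𝒪 (M₀ P ∅) Pd) (augIdeal πA)
  have hee : e * e = e := by
    have h1 := he (e - 1) (by rw [map_sub, he1, map_one, sub_self])
    rw [mul_sub, mul_one, sub_eq_zero] at h1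
    exact h1
  have hπe : πA e = 1 := by rw [← hloc, he1, map_one]
  have hex : ∀ x ∈ eigO Sg.𝒪 (M₀ P ∅) Pd ev, e • x = x := by
    intro x hx
    rw [hπA e x hx, hπe, one_smul]
  -- the kept `U_r` are scalars on the local factor
  have hsqf : Squarefree (M₀ P ∅) := by
    rw [M₀_empty]
    exact P.R0_sq
  have hSmem : ∀ q : ℕ, q.Prime → q ∣ M₀ P ∅ → q ∈ (↑(Sg.S ∪ P.Aux) : Set ℕ) := by
    intro q hq hqM
    rw [M₀_empty] at hqM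
    rcases Finset.mem_union.1 (P.R0_primes q hq hqM) with h | h
    · exact Finset.mem_coe.2 (Finset.mem_union_left _ (Finset.mem_union_left _ h))
    · exact Finset.mem_coe.2 (Finset.mem_union_right _ h)
  have hPS₁ : ∀ ℓ : ℕ, ℓ.Prime → ¬ ℓ ∣ M₀ P ∅ → ℓ ∉ (↑(Sg.S ∪ P.Aux) : Set ℕ) → ¬ Pd ℓ := by
    intro ℓ hℓ hℓM hℓS hP
    apply hℓS
    rw [(hPd ℓ hℓ hℓM).mp hP]
    exact Finset.mem_coe.2 (Finset.mem_union_left _ (Finset.mem_union_left _ P.hpSmin))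
  haveI : Fact P.p.Prime := P.hpf
  have h2 : IsUnit (2 : Sg.𝒪) := isUnit_two_of_mem P.hp2 Sg.hp𝒪
  have hU : ∀ {r : ℕ} (hr : r.Prime) (hrM : r ∣ M₀ P ∅) (hPr : ¬ Pd r),
      e * (uA hr hrM hPr - algebraMap Sg.𝒪 (HecA Sg.𝒪 (M₀ P ∅) Pd) (ev r)) = 0 :=
    fun hr hrM hPr => idem_mul_uA_sub_of_squarefree hsqf h2 hSmem hPS₁ ev hy₀ h0 πA hπA hone
      he1 he hr hrM hPr
  obtain ⟨χ, hχl, hχr, -, habs⟩ := hub_abs Sg hH hgood0 β₀ hβ₀ hTℓ hCI π₀ hϖ hfin ev hev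
  -- the idempotent
  let ε : MO Sg.𝒪 (M₀ P ∅) →ₗ[Sg.𝒪] MO Sg.𝒪 (M₀ P ∅) := HecA.val e
  have hεdef : ∀ x, ε x = e • x := fun _ => rfl
  have hε : ∀ x, ε (ε x) = ε x := fun x => by rw [hεdef, hεdef, ← mul_smul, hee]
  have hεadj : ∀ x y, formOw Sg.𝒪 (M₀ P ∅) (ε x) y = formOw Sg.𝒪 (M₀ P ∅) x (ε y) :=
    fun x y => formOw_hecA (HecA.val_mem e) x y
  have hεR : ∀ (r : MvPolynomial (Idx P.p (M₀ P ∅)) Sg.𝒪) (x : MO Sg.𝒪 (M₀ P ∅)),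
      ε (r • x) = r • ε x := by
    intro r x
    rw [moPoly_smul, moPoly_smul]
    refine polyHom_intertwine (opO Sg.𝒪 P.p (M₀ P ∅)) (opO_comm Sg.𝒪 P.p (M₀ P ∅))
      (opO Sg.𝒪 P.p (M₀ P ∅)) (opO_comm Sg.𝒪 P.p (M₀ P ∅)) ε ?_ r x
    intro i x
    rcases i with ℓ | n
    · have hP : ¬ Pd ℓ.1 := fun hP => ℓ.2.2.2 ((hPd ℓ.1 ℓ.2.1 ℓ.2.2.1).mp hP)
      rw [opO_inl]
      show e • (tA ℓ.2.1 ℓ.2.2.1 hP : HecA Sg.𝒪 (M₀ P ∅) Pd) • x =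
        (tA ℓ.2.1 ℓ.2.2.1 hP : HecA Sg.𝒪 (M₀ P ∅) Pd) • e • x
      rw [← mul_smul, ← mul_smul, mul_comm]
    · rw [opO_inr, Module.End.one_apply, Module.End.one_apply]
  have hrefl : ∀ x y : MO Sg.𝒪 (M₀ P ∅), formOw Sg.𝒪 (M₀ P ∅) x y = 0 →
      formOw Sg.𝒪 (M₀ P ∅) y x = 0 := fun x y h => by rw [formOw_swap, h, neg_zero]
  have hmain := habs ε hεR hε hεadj
  rw [eigR_inf_range_eq_eigO P.p Pd hPd ev χ hχl hχr e hee hex hU] at hmain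
  exact hmain.symm

/-- **HS6 : the base lower bound of the numerical criterion on the Hecke side.**  For the hub at `T = ∅` with base
bridge `β₀ : T_∅ → 𝕋_∅`, given the outputs of MIN (`β₀` bijective, `M0` free over `𝕋_∅`, `T_∅` a complete
intersection), an augmentation `π₀` of `T_∅` with `π₀ (T_ℓ) = ev ℓ`, the dropped primes `Pd` (off the level: exactly
`p`) and, at the kept primes `r` of the (squarefree) level, `ev r ^ 2 = 1` and the residual system new at `r`: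
the congruence module of the eigenlattice `eigO 𝒪 M' Pd ev`, `M' = M₀ P ∅ = R0`, for the twisted form has length
`rank • length (𝒪 ⧸ η_{π₀})`. -/
theorem hs6 (hH : HubHyp Sg) (hgood0 : (H0 Sg).Good P.p)
    (β₀ : (Sg.F Sg.S (Sg.hgoodS hH.hT)).R →ₐ[Sg.𝒪] T0 Sg) (hβ₀ : Function.Bijective β₀)
    (hTℓ : ∀ (ℓ : ℕ) (hℓ : ℓ.Prime) (hℓN : ¬ ℓ ∣ lvlTw P Sg.S)
      (hℓS : ℓ ∉ (↑(Sg.S ∪ P.Aux) : Set ℕ)) (hi : ℓ.Prime ∧ ¬ ℓ ∣ M₀ P ∅ ∧ ℓ ≠ P.p),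
      β₀ (heckeLocal.π _ _ _ _ (heckeAlgebra.T hℓ hℓN hℓS)) =
        (H0 Sg).tX Set.univ (Sum.inl ⟨ℓ, hi⟩) (Set.mem_univ _))
    [hfree : Module.Free (T0 Sg) (M0 Sg)]
    (hCI : IsCI Sg.𝒪 (Sg.F Sg.S (Sg.hgoodS hH.hT)).R)
    [Module.IsTorsionFree Sg.𝒪 (Sg.F Sg.S (Sg.hgoodS hH.hT)).R]
    (π₀ : (Sg.F Sg.S (Sg.hgoodS hH.hT)).R →ₐ[Sg.𝒪] Sg.𝒪) {ϖ : Sg.𝒪} (hϖ : Irreducible ϖ)
    (hfin : Module.length Sg.𝒪
      (RingHom.ker (π₀ : (Sg.F Sg.S (Sg.hgoodS hH.hT)).R →+* Sg.𝒪)).Cotangent ≠ ⊤)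
    (ev : ℕ → Sg.𝒪)
    (hev : ∀ (ℓ : ℕ) (hℓ : ℓ.Prime) (hℓN : ¬ ℓ ∣ lvlTw P Sg.S)
      (hℓS : ℓ ∉ (↑(Sg.S ∪ P.Aux) : Set ℕ)),
      π₀ (heckeLocal.π _ _ _ _ (heckeAlgebra.T hℓ hℓN hℓS)) = ev ℓ)
    (M' : ℕ) [NeZero M'] [Fintype (SL(2, ℤ) ⧸ Gamma0 M')] (hM' : M' = M₀ P ∅)
    (Pd : ℕ → Prop) (hPd : ∀ ℓ : ℕ, ℓ.Prime → ¬ ℓ ∣ M' → (Pd ℓ ↔ ℓ = P.p))
    (hone : ∀ (r M'' : ℕ) [NeZero M''], r.Prime → M' = M'' * r → ¬ r ∣ M'' → ¬ Pd r →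
      ev r * ev r = 1 ∧
      ¬ ∃ χ : heckeAlgebra M'' 2 (↑(Sg.S ∪ P.Aux) : Set ℕ) →+* ResidueField Sg.𝒪,
        ∀ (ℓ : ℕ) (hℓ : ℓ.Prime) (hℓM : ¬ ℓ ∣ M') (hℓM'' : ¬ ℓ ∣ M'')
          (hℓS : ℓ ∉ (↑(Sg.S ∪ P.Aux) : Set ℕ)),
          χ (heckeAlgebra.T hℓ hℓM'' hℓS) = residue Sg.𝒪 (ev ℓ)) :
    Module.finrank Sg.𝒪 (eigO Sg.𝒪 M' Pd ev) • Module.length Sg.𝒪 (Sg.𝒪 ⧸ congIdeal π₀) =
      Module.length Sg.𝒪 (MO Sg.𝒪 M' ⧸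
        (eigO Sg.𝒪 M' Pd ev ⊔ rorth (formOw Sg.𝒪 M') (eigO Sg.𝒪 M' Pd ev))) := by
  subst hM'
  exact hs6_aux Sg hH hgood0 β₀ hβ₀ hTℓ hCI π₀ hϖ hfin ev hev Pd hPd hone

end Main

end Fermat.Agent.S59lib.Min.HS6
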