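import Mathlib
import Fermat.Agent.S59lib.Min.HS6.Main

/-!
# Project I / HS6 : the signs at the base level

The anemic eigenlattice of `π₀ : T_∅ → 𝒪` in `MO 𝒪 R0` does not vanish (`Main.hub_abs`); the operators `U_r`,
`r ∣ R0`, preserve it, commute, and satisfy `U_r² = 1` on it as soon as the residual system is new at `r`
(helper2's trace identity).  Hence there is a simultaneous eigenvector whose eigenvalues are square roots of `1`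
(no hypothesis on `2` is needed: `𝒪` is a domain and the lattice is torsion free):

`exists_signs : ∃ ev₀, ev₀ = ev off R0 ∧ ev₀ r ^ 2 = 1 (r ∣ R0 kept) ∧ eigO 𝒪 R0 Pd ev₀ ≠ ⊥`, and `hs6_signs` = the same
together with the congruence-module formula of `Main.hs6` for `ev₀`.
-/

set_option autoImplicit false
set_option linter.unusedSectionVars false
set_option linter.unusedVariables false
set_option linter.style.haveILetI false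

noncomputable section

namespace Fermat.Agent.S59lib.Min.HS6

open CongruenceSubgroup Matrix.SpecialLinearGroup ModularCurve.Period TensorProduct
open Fermat.Agent.S41lib.HC Fermat.Agent.S41lib.BR Fermat.Agent.S16lib.LG Fermat.Agent.S59lib.N3
open Fermat.Agent.S43lib.B2.Bridge Fermat.Agent.S43lib.B1 Fermat.Agent.S43lib.B3
open Fermat.Agent.S43lib.Mod4 Fermat.Agent.S43lib.Mod4.Hub Fermat.Agent.S43lib.Mod4.HO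
open Fermat.Agent.S43lib.Loc Fermat.Agent.S59lib.Hub Fermat.Agent.S59lib.NumCrit
open Fermat.Agent.S59lib.HS IsLocalRing CuspForm
open scoped MatrixGroups

/-! ### commuting involutions -/

section Invol

variable {𝒪 V : Type*} [CommRing 𝒪] [AddCommGroup V] [Module 𝒪 V]

/-- **finitely many commuting involutions of a nonzero module have a simultaneous eigenvector**, with
eigenvalues `±1` -/
theorem exists_simultaneous_signs {ι : Type*} [DecidableEq ι] (s : Finset ι)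
    (u : ι → V →ₗ[𝒪] V) :
    ∀ W : Submodule 𝒪 V, W ≠ ⊥ → (∀ i ∈ s, ∀ x ∈ W, u i x ∈ W) →
      (∀ i ∈ s, ∀ x ∈ W, u i (u i x) = x) →
      (∀ i ∈ s, ∀ j ∈ s, ∀ x ∈ W, u i (u j x) = u j (u i x)) →
      ∃ (σ : ι → 𝒪) (x : V), x ∈ W ∧ x ≠ 0 ∧ ∀ i ∈ s, σ i * σ i = 1 ∧ u i x = σ i • x := by
  induction s using Finset.induction_on with
  | empty =>
    intro W hW _ _ _
    obtain ⟨x, hxW, hx0⟩ := (Submodule.ne_bot_iff _).mp hW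
    exact ⟨fun _ => 1, x, hxW, hx0, fun i hi => absurd hi (Finset.notMem_empty i)⟩
  | insert a s ha ih =>
    intro W hW hst hinv hcomm
    obtain ⟨x, hxW, hx0⟩ := (Submodule.ne_bot_iff _).mp hW
    have haW : ∀ y ∈ W, u a y ∈ W := hst a (Finset.mem_insert_self a s)
    have hainv : ∀ y ∈ W, u a (u a y) = y := hinv a (Finset.mem_insert_self a s)
    -- the general step: a sign `c` with `c * c = 1` and a nonzero `c`-eigenvector of `u a` in `W`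
    have step : ∀ (c : 𝒪), c * c = 1 → ∀ z ∈ W, z ≠ 0 → u a z = c • z →
        ∃ (σ : ι → 𝒪) (x : V), x ∈ W ∧ x ≠ 0 ∧
          ∀ i ∈ insert a s, σ i * σ i = 1 ∧ u i x = σ i • x := by
      intro c hc z hzW hz0 hz
      let W' : Submodule 𝒪 V := W ⊓ LinearMap.ker (u a - c • LinearMap.id)
      have hW'mem : ∀ y, y ∈ W' ↔ y ∈ W ∧ u a y = c • y := by
        intro y
        rw [Submodule.mem_inf, LinearMap.mem_ker, LinearMap.sub_apply, LinearMap.smul_apply,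
          LinearMap.id_apply, sub_eq_zero]
      have hW' : W' ≠ ⊥ := (Submodule.ne_bot_iff _).mpr ⟨z, (hW'mem z).mpr ⟨hzW, hz⟩, hz0⟩
      obtain ⟨σ, y, hyW', hy0, hσ⟩ := ih W' hW'
        (fun i hi y hy => by
          have hy' := (hW'mem y).mp hy
          refine (hW'mem _).mpr ⟨hst i (Finset.mem_insert_of_mem hi) y hy'.1, ?_⟩
          rw [hcomm a (Finset.mem_insert_self a s) i (Finset.mem_insert_of_mem hi) y hy'.1,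
            hy'.2, map_smul])
        (fun i hi y hy => hinv i (Finset.mem_insert_of_mem hi) y ((hW'mem y).mp hy).1)
        (fun i hi j hj y hy => hcomm i (Finset.mem_insert_of_mem hi) j
          (Finset.mem_insert_of_mem hj) y ((hW'mem y).mp hy).1)
      have hy' := (hW'mem y).mp hyW'
      refine ⟨Function.update σ a c, y, hy'.1, hy0, fun i hi => ?_⟩
      rcases Finset.mem_insert.mp hi with rfl | hi
      · rw [Function.update_self]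
        exact ⟨hc, hy'.2⟩
      · have hia : i ≠ a := fun h => ha (h ▸ hi)
        rw [Function.update_of_ne hia]
        exact hσ i hi
    by_cases hp : x + u a x = 0
    · -- then `u a x = - x`
      have h1 : u a x = (-1 : 𝒪) • x := by
        rw [neg_smul, one_smul]
        exact (eq_neg_of_add_eq_zero_right hp)
      exact step (-1) (by ring) x hxW hx0 h1
    · have h1 : u a (x + u a x) = (1 : 𝒪) • (x + u a x) := by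
        rw [map_add, hainv x hxW, one_smul, add_comm]
      exact step 1 (by ring) (x + u a x) (W.add_mem hxW (haW x hxW)) hp h1

end Invol

/-! ### `U_r² = 1` on the anemic eigenlattice -/

section Sq

variable {𝒪 : Type} [CommRing 𝒪] [IsDomain 𝒪] [IsDiscreteValuationRing 𝒪]
  [IsAdicComplete (maximalIdeal 𝒪) 𝒪]

/-- **`U_r² = 1` on an eigenlattice of the `T_ℓ` whose residual system is new at `r`**, level `M' r` -/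
theorem uO_uO_of_mem_eigO {M' r : ℕ} [NeZero M'] [Fact r.Prime] (hrM' : ¬ r ∣ M') {P₀ : ℕ → Prop}
    {S : Set ℕ} (hrS : r ∈ S) (hPS : ∀ ℓ : ℕ, ℓ.Prime → ¬ ℓ ∣ M' * r → ℓ ∉ S → ¬ P₀ ℓ)
    (hS' : ∀ q : ℕ, q.Prime → q ∣ M' → q ∈ S) (ev : ℕ → 𝒪)
    (hnew : ¬ ∃ χ : heckeAlgebra M' 2 S →+* ResidueField 𝒪, ∀ ℓ : GoodPrime M' S,
      χ (heckeAlgebra.T ℓ.2.1 ℓ.2.2.1 ℓ.2.2.2) = residue 𝒪 (ev ℓ.1))
    (x : MO 𝒪 (M' * r)) (hx : x ∈ eigO 𝒪 (M' * r) P₀ ev) :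
    uO 𝒪 (dvd_mul_left r M') (uO 𝒪 (dvd_mul_left r M') x) = x := by
  by_cases h0 : x = 0
  · rw [h0, map_zero, map_zero]
  obtain ⟨πA, hπA⟩ := exists_eigChar ev hx h0
  obtain ⟨a, b, c, d, h⟩ := exists_al_params (N := M') (q := r) hrM'
  -- the polynomial separating the level
  obtain ⟨Q, hQ0, hQ1⟩ : ∃ Q : FreeAlgebra ℤ (GoodPrime M' S),
      (evalForms Q : ↥(heckeAlgebra M' 2 S)) = 0 ∧
      FreeAlgebra.lift ℤ (fun ℓ : GoodPrime M' S =>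
        residue 𝒪 (πA (tA ℓ.2.1 (not_dvd_mul_of_good hrS ℓ)
          (hPS ℓ.1 ℓ.2.1 (not_dvd_mul_of_good hrS ℓ) ℓ.2.2.2)))) Q ≠ 0 := by
    by_contra hcon
    push Not at hcon
    obtain ⟨χ, hχ⟩ := exists_heckeAlgebra_ringHom M' S hS' (ResidueField 𝒪) _ hcon
    refine hnew ⟨χ, fun ℓ => ?_⟩
    rw [hχ ℓ, eigChar_tA ev hx h0 πA hπA]
  have hQL : evalL Q = 0 := evalL_eq_zero Q hQ0
  have hs : πA (polA (𝒪 := 𝒪) (P := P₀) hrS hPS Q) ∉ maximalIdeal 𝒪 := by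
    intro hmem
    apply hQ1
    have h1 := map_lift_int ((residue 𝒪).comp (πA : HecA 𝒪 (M' * r) P₀ →+* 𝒪))
      (fun ℓ : GoodPrime M' S => (tA ℓ.2.1 (not_dvd_mul_of_good hrS ℓ)
        (hPS ℓ.1 ℓ.2.1 (not_dvd_mul_of_good hrS ℓ) ℓ.2.2.2) : HecA 𝒪 (M' * r) P₀)) Q
    have h3 : residue 𝒪 (πA (polA (𝒪 := 𝒪) (P := P₀) hrS hPS Q)) = 0 :=
      (residue_eq_zero_iff _).mpr hmem
    exact h1.symm.trans h3
  set s : HecA 𝒪 (M' * r) P₀ := polA (𝒪 := 𝒪) (P := P₀) hrS hPS Q with hsdef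
  -- the trace identity on `s • v`
  have key : ∀ v : MO 𝒪 (M' * r),
      uO 𝒪 (dvd_mul_left r M') (uO 𝒪 (dvd_mul_left r M') (s • v)) = s • v := by
    intro v
    have k₁ : cO 𝒪 hrM' (s • v) = 0 := cO_polA hrM' hrS hPS Q hQL v
    have k₂ : cO 𝒪 hrM' (wqO 𝒪 a b c d h (s • v)) = 0 := by
      rw [hsdef, wqO_polA hrS hPS a b c d h Q v]
      exact cO_polA hrM' hrS hPS Q hQL _
    have T1 : uO 𝒪 (dvd_mul_left r M') (wqO 𝒪 a b c d h (s • v)) = -(s • v) := by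
      have := rO_cO hrM' a b c d h (s • v)
      rw [k₁, map_zero] at this
      exact eq_neg_of_add_eq_zero_left this.symm
    have T2 : uO 𝒪 (dvd_mul_left r M') (s • v) = -(wqO 𝒪 a b c d h (s • v)) := by
      have := rO_cO hrM' a b c d h (wqO 𝒪 a b c d h (s • v))
      rw [k₂, map_zero, wqO_wqO] at this
      exact eq_neg_of_add_eq_zero_left this.symm
    rw [T2, map_neg, T1, neg_neg]
  have hsx : s • x = πA s • x := hπA s x hx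
  have hu : IsUnit (πA s) := IsLocalRing.notMem_maximalIdeal.mp hs
  have h4 := key x
  rw [hsx, map_smul, map_smul] at h4
  obtain ⟨w, hw⟩ := hu
  have h5 := congrArg (fun y => ((w⁻¹ : 𝒪ˣ) : 𝒪) • y) h4
  simp only [← hw, smul_smul, Units.inv_mul, one_smul] at h5
  exact h5

/-- the same for a level given by an equation -/
theorem uO_uO_of_mem_eigO_of_eq {M M' r : ℕ} [NeZero M] [NeZero M'] (hr : r.Prime)
    (hM : M = M' * r) (hrM' : ¬ r ∣ M') (hrM : r ∣ M) {P₀ : ℕ → Prop} {S : Set ℕ} (hrS : r ∈ S)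
    (hPS : ∀ ℓ : ℕ, ℓ.Prime → ¬ ℓ ∣ M → ℓ ∉ S → ¬ P₀ ℓ)
    (hS' : ∀ q : ℕ, q.Prime → q ∣ M' → q ∈ S) (ev : ℕ → 𝒪)
    (hnew : ¬ ∃ χ : heckeAlgebra M' 2 S →+* ResidueField 𝒪,
      ∀ (ℓ : ℕ) (hℓ : ℓ.Prime) (hℓM : ¬ ℓ ∣ M) (hℓM' : ¬ ℓ ∣ M') (hℓS : ℓ ∉ S),
        χ (heckeAlgebra.T hℓ hℓM' hℓS) = residue 𝒪 (ev ℓ))
    (x : MO 𝒪 M) (hx : x ∈ eigO 𝒪 M P₀ ev) :
    @uO 𝒪 _ M r _ ⟨hr⟩ hrM (@uO 𝒪 _ M r _ ⟨hr⟩ hrM x) = x := by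
  subst hM
  haveI : Fact r.Prime := ⟨hr⟩
  refine uO_uO_of_mem_eigO hrM' hrS hPS hS' ev ?_ x hx
  rintro ⟨χ, hχ⟩
  exact hnew ⟨χ, fun ℓ hℓ hℓM hℓM' hℓS => hχ ⟨ℓ, hℓ, hℓM', hℓS⟩⟩

/-- **The sign choice at an arbitrary level.**  `K` is a finite set of primes exactly dividing the level `M`,
`D` the predicate of the dropped primes.  If the eigenlattice which is moreover ANEMIC AT `K` is nonzero and
the residual system is new at every `r ∈ K`, the values at `K` can be chosen among the square roots of `1` such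
that the eigenlattice with the `U_r`, `r ∈ K`, imposed is nonzero. -/
theorem exists_signs_of_anemic {M : ℕ} [NeZero M] (K : Finset ℕ) (D : ℕ → Prop) {S : Set ℕ}
    (hK : ∀ r ∈ K, r.Prime ∧ r ∣ M ∧ ¬ r * r ∣ M)
    (hS : ∀ q : ℕ, q.Prime → q ∣ M → q ∈ S)
    (hDS : ∀ ℓ : ℕ, ℓ.Prime → ¬ ℓ ∣ M → ℓ ∉ S → ¬ D ℓ) (ev : ℕ → 𝒪)
    (hne : eigO 𝒪 M (fun ℓ => D ℓ ∨ ℓ ∈ K) ev ≠ ⊥)
    (hnew : ∀ r ∈ K, ∀ (M' : ℕ) [NeZero M'], M = M' * r → ¬ r ∣ M' →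
      ¬ ∃ χ : heckeAlgebra M' 2 S →+* ResidueField 𝒪,
        ∀ (ℓ : ℕ) (hℓ : ℓ.Prime) (hℓM : ¬ ℓ ∣ M) (hℓM' : ¬ ℓ ∣ M') (hℓS : ℓ ∉ S),
          χ (heckeAlgebra.T hℓ hℓM' hℓS) = residue 𝒪 (ev ℓ)) :
    ∃ ev' : ℕ → 𝒪, (∀ ℓ : ℕ, ℓ ∉ K → ev' ℓ = ev ℓ) ∧ (∀ r ∈ K, ev' r * ev' r = 1) ∧
      eigO 𝒪 M D ev' ≠ ⊥ := by
  classical
  set P₀ : ℕ → Prop := fun ℓ => D ℓ ∨ ℓ ∈ K with hP₀
  let u : ℕ → MO 𝒪 M →ₗ[𝒪] MO 𝒪 M := fun r =>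
    if h : r.Prime ∧ r ∣ M then @uO 𝒪 _ M r _ ⟨h.1⟩ h.2 else LinearMap.id
  have hu : ∀ (r : ℕ) (hr : r.Prime) (hrM : r ∣ M),
      u r = @uO 𝒪 _ M r _ ⟨hr⟩ hrM := fun r hr hrM => dif_pos ⟨hr, hrM⟩
  have hPS₀ : ∀ ℓ : ℕ, ℓ.Prime → ¬ ℓ ∣ M → ℓ ∉ S → ¬ P₀ ℓ := by
    rintro ℓ hℓ hℓM hℓS (h | h)
    · exact hDS ℓ hℓ hℓM hℓS h
    · exact hℓM (hK ℓ h).2.1
  obtain ⟨σ, x, hxW, hx0, hσ⟩ := exists_simultaneous_signs K u (eigO 𝒪 M P₀ ev) hne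
    (by
      intro r hr x hx
      obtain ⟨hrp, hrM, -⟩ := hK r hr
      haveI : Fact r.Prime := ⟨hrp⟩
      rw [hu r hrp hrM]
      refine ⟨fun ℓ hℓ hℓM hP => ?_, fun r' hr' hr'M hP => ?_⟩
      · rw [← uO_tO_comm hℓ hℓM hrM x, hx.1 ℓ hℓ hℓM hP, map_smul]
      · haveI : Fact r'.Prime := ⟨hr'⟩
        have hc := LinearMap.congr_fun (uO_uO_comm (𝒪 := 𝒪) hr'M hrM) x
        rw [Module.End.mul_apply, Module.End.mul_apply] at hc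
        rw [hc, hx.2 r' hr' hr'M hP, map_smul])
    (by
      intro r hr x hx
      obtain ⟨hrp, hrM, hrr⟩ := hK r hr
      rw [hu r hrp hrM]
      have hrM2 := hrM
      obtain ⟨M', hM'⟩ := hrM2
      have hM : M = M' * r := by
        rw [hM']
        ring
      have hM0 : NeZero M' := ⟨by
        rintro rfl
        exact (NeZero.ne M) (by rw [hM]; simp)⟩
      have hrM'' : ¬ r ∣ M' := by
        rintro ⟨k, rfl⟩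
        exact hrr ⟨k, by rw [hM]; ring⟩
      exact uO_uO_of_mem_eigO_of_eq hrp hM hrM'' hrM (hS r hrp hrM) hPS₀
        (fun q hq hqM' => hS q hq (hM ▸ Dvd.dvd.mul_right hqM' r)) ev
        (hnew r hr M' hM hrM'') x hx)
    (by
      intro r hr r' hr' x hx
      obtain ⟨hrp, hrM, -⟩ := hK r hr
      obtain ⟨hrp', hrM', -⟩ := hK r' hr'
      haveI : Fact r.Prime := ⟨hrp⟩
      haveI : Fact r'.Prime := ⟨hrp'⟩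
      rw [hu r hrp hrM, hu r' hrp' hrM']
      exact LinearMap.congr_fun (uO_uO_comm (𝒪 := 𝒪) hrM hrM') x)
  refine ⟨fun ℓ => if ℓ ∈ K then σ ℓ else ev ℓ, fun ℓ hℓK => if_neg hℓK,
    fun r hr => ?_, ?_⟩
  · show (if r ∈ K then σ r else ev r) * (if r ∈ K then σ r else ev r) = 1
    rw [if_pos hr]
    exact (hσ r hr).1
  · refine (Submodule.ne_bot_iff _).mpr ⟨x, ⟨fun ℓ hℓ hℓM hP => ?_, fun r hr hrM hP => ?_⟩, hx0⟩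
    · have hℓK : ℓ ∉ K := fun h => hℓM (hK ℓ h).2.1
      have hP₀ℓ : ¬ P₀ ℓ := by
        rintro (h | h)
        · exact hP h
        · exact hℓK h
      show tO 𝒪 hℓ hℓM x = (if ℓ ∈ K then σ ℓ else ev ℓ) • x
      rw [if_neg hℓK]
      exact hxW.1 ℓ hℓ hℓM hP₀ℓ
    · show @uO 𝒪 _ M r _ ⟨hr⟩ hrM x = (if r ∈ K then σ r else ev r) • x
      by_cases hrK : r ∈ K
      · rw [if_pos hrK, ← hu r hr hrM]
        exact (hσ r hrK).2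
      · rw [if_neg hrK]
        have hP₀r : ¬ P₀ r := by
          rintro (h | h)
          · exact hP h
          · exact hrK h
        exact hxW.2 r hr hrM hP₀r

end Sq

/-! ### the signs -/

section Signs

attribute [local instance] moPolyModule

variable {P : Ctx} (Sg : SideGal P (∅ : Finset ℕ))

set_option maxHeartbeats 1600000 in
set_option synthInstance.maxHeartbeats 400000 in
/-- **the signs at the base level `M₀ P ∅`** -/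
theorem exists_signs_aux (hH : HubHyp Sg) (hgood0 : (H0 Sg).Good P.p)
    (β₀ : (Sg.F Sg.S (Sg.hgoodS hH.hT)).R →ₐ[Sg.𝒪] T0 Sg) (hβ₀ : Function.Bijective β₀)
    (hTℓ : ∀ (ℓ : ℕ) (hℓ : ℓ.Prime) (hℓN : ¬ ℓ ∣ lvlTw P Sg.S)
      (hℓS : ℓ ∉ (↑(Sg.S ∪ P.Aux) : Set ℕ)) (hi : ℓ.Prime ∧ ¬ ℓ ∣ M₀ P ∅ ∧ ℓ ≠ P.p),
      β₀ (heckeLocal.π _ _ _ _ (heckeAlgebra.T hℓ hℓN hℓS)) =
        (H0 Sg).tX Set.univ (Sum.inl ⟨ℓ, hi⟩) (Set.mem_univ _))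
    [hfree : Module.Free (T0 Sg) (M0 Sg)]
    (hCI : IsCI Sg.𝒪 (Sg.F Sg.S (Sg.hgoodS hH.hT)).R)
    [Module.IsTorsionFree Sg.𝒪 (Sg.F Sg.S (Sg.hgoodS hH.hT)).R]
    (π₀ : (Sg.F Sg.S (Sg.hgoodS hH.hT)).R →ₐ[Sg.𝒪] Sg.𝒪) {ϖ : Sg.𝒪} (hϖ : Irreducible ϖ)
    (hfin : Module.length Sg.𝒪
      (RingHom.ker (π₀ : (Sg.F Sg.S (Sg.hgoodS hH.hT)).R →+* Sg.𝒪)).Cotangent ≠ ⊤)
    (ev : ℕ → Sg.𝒪)
    (hev : ∀ (ℓ : ℕ) (hℓ : ℓ.Prime) (hℓN : ¬ ℓ ∣ lvlTw P Sg.S)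
      (hℓS : ℓ ∉ (↑(Sg.S ∪ P.Aux) : Set ℕ)),
      π₀ (heckeLocal.π _ _ _ _ (heckeAlgebra.T hℓ hℓN hℓS)) = ev ℓ)
    (Pd : ℕ → Prop) (hPd : ∀ ℓ : ℕ, ℓ.Prime → ¬ ℓ ∣ M₀ P ∅ → (Pd ℓ ↔ ℓ = P.p))
    (hnew : ∀ (r M' : ℕ) [NeZero M'], r.Prime → M₀ P ∅ = M' * r → ¬ r ∣ M' → ¬ Pd r →
      ¬ ∃ χ : heckeAlgebra M' 2 (↑(Sg.S ∪ P.Aux) : Set ℕ) →+* ResidueField Sg.𝒪,
        ∀ (ℓ : ℕ) (hℓ : ℓ.Prime) (hℓM : ¬ ℓ ∣ M₀ P ∅) (hℓM' : ¬ ℓ ∣ M')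
          (hℓS : ℓ ∉ (↑(Sg.S ∪ P.Aux) : Set ℕ)),
          χ (heckeAlgebra.T hℓ hℓM' hℓS) = residue Sg.𝒪 (ev ℓ)) :
    ∃ ev₀ : ℕ → Sg.𝒪, (∀ ℓ : ℕ, ¬ ℓ ∣ M₀ P ∅ → ev₀ ℓ = ev ℓ) ∧
      (∀ r : ℕ, r.Prime → r ∣ M₀ P ∅ → ¬ Pd r → ev₀ r * ev₀ r = 1) ∧
      eigO Sg.𝒪 (M₀ P ∅) Pd ev₀ ≠ ⊥ := by
  classical
  letI : Fintype (SL(2, ℤ) ⧸ Gamma0 (M₀ P ∅)) := Fintype.ofFinite _
  obtain ⟨χ, hχl, hχr, hne, -⟩ := hub_abs Sg hH hgood0 β₀ hβ₀ hTℓ hCI π₀ hϖ hfin ev hev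
  -- the anemic eigenlattice
  set P₀ : ℕ → Prop := fun ℓ => ℓ ∣ M₀ P ∅ ∨ ℓ = P.p with hP₀
  have hWne : eigO Sg.𝒪 (M₀ P ∅) P₀ ev ≠ ⊥ := by
    obtain ⟨x, hx, hx0⟩ := (Submodule.ne_bot_iff _).mp hne
    refine (Submodule.ne_bot_iff _).mpr ⟨x, ⟨fun ℓ hℓ hℓM hP => ?_, fun r hr hrM hP => ?_⟩, hx0⟩
    · have hℓp : ℓ ≠ P.p := fun h => hP (Or.inr h)
      have h1 := hx (MvPolynomial.X (Sum.inl ⟨ℓ, hℓ, hℓM, hℓp⟩))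
      rw [moPoly_X_inl, hχl] at h1
      exact h1
    · exact absurd (Or.inl hrM) hP
  -- the operators
  let u : ℕ → MO Sg.𝒪 (M₀ P ∅) →ₗ[Sg.𝒪] MO Sg.𝒪 (M₀ P ∅) := fun r =>
    if h : r.Prime ∧ r ∣ M₀ P ∅ then @uO Sg.𝒪 _ (M₀ P ∅) r _ ⟨h.1⟩ h.2 else LinearMap.id
  have hu : ∀ (r : ℕ) (hr : r.Prime) (hrM : r ∣ M₀ P ∅),
      u r = @uO Sg.𝒪 _ (M₀ P ∅) r _ ⟨hr⟩ hrM := fun r hr hrM => dif_pos ⟨hr, hrM⟩
  let s : Finset ℕ := (M₀ P ∅).primeFactors.filter fun r => ¬ Pd r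
  have hs : ∀ r ∈ s, r.Prime ∧ r ∣ M₀ P ∅ ∧ ¬ Pd r := by
    intro r hr
    obtain ⟨h1, h2⟩ := Finset.mem_filter.mp hr
    obtain ⟨h3, h4, -⟩ := Nat.mem_primeFactors.mp h1
    exact ⟨h3, h4, h2⟩
  have hsqf : Squarefree (M₀ P ∅) := by
    rw [M₀_empty]
    exact P.R0_sq
  have hSmem : ∀ q : ℕ, q.Prime → q ∣ M₀ P ∅ → q ∈ (↑(Sg.S ∪ P.Aux) : Set ℕ) := by
    intro q hq hqM
    rw [M₀_empty] at hqM
    rcases Finset.mem_union.1 (P.R0_primes q hq hqM) with h | h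
    · exact Finset.mem_coe.2 (Finset.mem_union_left _ (Finset.mem_union_left _ h))
    · exact Finset.mem_coe.2 (Finset.mem_union_right _ h)
  have hPS₀ : ∀ ℓ : ℕ, ℓ.Prime → ¬ ℓ ∣ M₀ P ∅ → ℓ ∉ (↑(Sg.S ∪ P.Aux) : Set ℕ) → ¬ P₀ ℓ := by
    rintro ℓ hℓ hℓM hℓS (h | h)
    · exact hℓM h
    · apply hℓS
      rw [h]
      exact Finset.mem_coe.2 (Finset.mem_union_left _ (Finset.mem_union_left _ P.hpSmin))
  obtain ⟨σ, x, hxW, hx0, hσ⟩ := exists_simultaneous_signs s u (eigO Sg.𝒪 (M₀ P ∅) P₀ ev) hWne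
    (by
      intro r hr x hx
      obtain ⟨hrp, hrM, -⟩ := hs r hr
      haveI : Fact r.Prime := ⟨hrp⟩
      rw [hu r hrp hrM]
      refine ⟨fun ℓ hℓ hℓM hP => ?_, fun r' hr' hr'M hP => absurd (Or.inl hr'M) hP⟩
      rw [← uO_tO_comm hℓ hℓM hrM x, hx.1 ℓ hℓ hℓM hP, map_smul])
    (by
      intro r hr x hx
      obtain ⟨hrp, hrM, hrP⟩ := hs r hr
      rw [hu r hrp hrM]
      have hrM2 := hrM
      obtain ⟨M', hM'⟩ := hrM2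
      have hM : M₀ P ∅ = M' * r := by
        rw [hM']
        ring
      have hM0 : NeZero M' := ⟨by
        rintro rfl
        exact (NeZero.ne (M₀ P ∅)) (by rw [hM]; simp)⟩
      have hrM'' : ¬ r ∣ M' := by
        rintro ⟨k, rfl⟩
        have h1 : r * r ∣ M₀ P ∅ := ⟨k, by rw [hM]; ring⟩
        exact hrp.one_lt.ne' (Nat.isUnit_iff.mp (hsqf r h1))
      exact uO_uO_of_mem_eigO_of_eq hrp hM hrM'' hrM (hSmem r hrp hrM) hPS₀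
        (fun q hq hqM' => hSmem q hq (hM ▸ Dvd.dvd.mul_right hqM' r)) ev
        (hnew r M' hrp hM hrM'' hrP) x hx)
    (by
      intro r hr r' hr' x hx
      obtain ⟨hrp, hrM, -⟩ := hs r hr
      obtain ⟨hrp', hrM', -⟩ := hs r' hr'
      haveI : Fact r.Prime := ⟨hrp⟩
      haveI : Fact r'.Prime := ⟨hrp'⟩
      rw [hu r hrp hrM, hu r' hrp' hrM']
      exact LinearMap.congr_fun (uO_uO_comm (𝒪 := Sg.𝒪) hrM hrM') x)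
  refine ⟨fun ℓ => if ℓ ∣ M₀ P ∅ then σ ℓ else ev ℓ, fun ℓ hℓM => if_neg hℓM, ?_, ?_⟩
  · intro r hr hrM hrP
    have hrs : r ∈ s := Finset.mem_filter.mpr
      ⟨Nat.mem_primeFactors.mpr ⟨hr, hrM, NeZero.ne _⟩, hrP⟩
    show (if r ∣ M₀ P ∅ then σ r else ev r) * (if r ∣ M₀ P ∅ then σ r else ev r) = 1
    rw [if_pos hrM]
    exact (hσ r hrs).1
  · refine (Submodule.ne_bot_iff _).mpr ⟨x, ⟨fun ℓ hℓ hℓM hP => ?_, fun r hr hrM hP => ?_⟩, hx0⟩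
    · have hℓp : ℓ ≠ P.p := fun h => hP ((hPd ℓ hℓ hℓM).mpr h)
      have hP₀ℓ : ¬ P₀ ℓ := by
        rintro (h | h)
        · exact hℓM h
        · exact hℓp h
      show tO Sg.𝒪 hℓ hℓM x = (if ℓ ∣ M₀ P ∅ then σ ℓ else ev ℓ) • x
      rw [if_neg hℓM]
      exact hxW.1 ℓ hℓ hℓM hP₀ℓ
    · have hrs : r ∈ s := Finset.mem_filter.mpr
        ⟨Nat.mem_primeFactors.mpr ⟨hr, hrM, NeZero.ne _⟩, hP⟩
      show @uO Sg.𝒪 _ (M₀ P ∅) r _ ⟨hr⟩ hrM x = (if r ∣ M₀ P ∅ then σ r else ev r) • x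
      rw [if_pos hrM, ← hu r hr hrM]
      exact (hσ r hrs).2

/-- **Sign choice at the hub** (level `M' = M₀ P ∅ = R0`).  Under the hypotheses of `hs6`, with
`hone` weakened to the newness part `hnew`, the values `ev r` at the KEPT primes `r ∣ M'` can be
chosen among the square roots of `1` such that the (partially full) eigenlattice is nonzero. -/
theorem exists_signs (hH : HubHyp Sg) (hgood0 : (H0 Sg).Good P.p)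
    (β₀ : (Sg.F Sg.S (Sg.hgoodS hH.hT)).R →ₐ[Sg.𝒪] T0 Sg) (hβ₀ : Function.Bijective β₀)
    (hTℓ : ∀ (ℓ : ℕ) (hℓ : ℓ.Prime) (hℓN : ¬ ℓ ∣ lvlTw P Sg.S)
      (hℓS : ℓ ∉ (↑(Sg.S ∪ P.Aux) : Set ℕ)) (hi : ℓ.Prime ∧ ¬ ℓ ∣ M₀ P ∅ ∧ ℓ ≠ P.p),
      β₀ (heckeLocal.π _ _ _ _ (heckeAlgebra.T hℓ hℓN hℓS)) =
        (H0 Sg).tX Set.univ (Sum.inl ⟨ℓ, hi⟩) (Set.mem_univ _))
    [hfree : Module.Free (T0 Sg) (M0 Sg)]
    (hCI : IsCI Sg.𝒪 (Sg.F Sg.S (Sg.hgoodS hH.hT)).R)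
    [Module.IsTorsionFree Sg.𝒪 (Sg.F Sg.S (Sg.hgoodS hH.hT)).R]
    (π₀ : (Sg.F Sg.S (Sg.hgoodS hH.hT)).R →ₐ[Sg.𝒪] Sg.𝒪) {ϖ : Sg.𝒪} (hϖ : Irreducible ϖ)
    (hfin : Module.length Sg.𝒪
      (RingHom.ker (π₀ : (Sg.F Sg.S (Sg.hgoodS hH.hT)).R →+* Sg.𝒪)).Cotangent ≠ ⊤)
    (ev : ℕ → Sg.𝒪)
    (hev : ∀ (ℓ : ℕ) (hℓ : ℓ.Prime) (hℓN : ¬ ℓ ∣ lvlTw P Sg.S)
      (hℓS : ℓ ∉ (↑(Sg.S ∪ P.Aux) : Set ℕ)),
      π₀ (heckeLocal.π _ _ _ _ (heckeAlgebra.T hℓ hℓN hℓS)) = ev ℓ)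
    (M' : ℕ) [NeZero M'] [Fintype (SL(2, ℤ) ⧸ Gamma0 M')] (hM' : M' = M₀ P ∅)
    (Pd : ℕ → Prop) (hPd : ∀ ℓ : ℕ, ℓ.Prime → ¬ ℓ ∣ M' → (Pd ℓ ↔ ℓ = P.p))
    (hnew : ∀ (r M'' : ℕ) [NeZero M''], r.Prime → M' = M'' * r → ¬ r ∣ M'' → ¬ Pd r →
      ¬ ∃ χ : heckeAlgebra M'' 2 (↑(Sg.S ∪ P.Aux) : Set ℕ) →+* ResidueField Sg.𝒪,
        ∀ (ℓ : ℕ) (hℓ : ℓ.Prime) (hℓM : ¬ ℓ ∣ M') (hℓM'' : ¬ ℓ ∣ M'')
          (hℓS : ℓ ∉ (↑(Sg.S ∪ P.Aux) : Set ℕ)),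
          χ (heckeAlgebra.T hℓ hℓM'' hℓS) = residue Sg.𝒪 (ev ℓ)) :
    ∃ ev₀ : ℕ → Sg.𝒪, (∀ ℓ : ℕ, ¬ ℓ ∣ M' → ev₀ ℓ = ev ℓ) ∧
      (∀ r : ℕ, r.Prime → r ∣ M' → ¬ Pd r → ev₀ r * ev₀ r = 1) ∧
      eigO Sg.𝒪 M' Pd ev₀ ≠ ⊥ := by
  subst hM'
  exact exists_signs_aux Sg hH hgood0 β₀ hβ₀ hTℓ hCI π₀ hϖ hfin ev hev Pd hPd hnew

/-- **HS6 with the sign choice built in**: under the hypotheses of `hs6` with `hone` weakened to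
its newness part, there is a system `ev₀` agreeing with `ev` away from `M' = R0`, with
`ev₀ r ^ 2 = 1` at the kept primes `r ∣ M'`, whose eigenlattice is NONZERO and satisfies the
congruence-module formula of `hs6`. -/
theorem hs6_signs (hH : HubHyp Sg) (hgood0 : (H0 Sg).Good P.p)
    (β₀ : (Sg.F Sg.S (Sg.hgoodS hH.hT)).R →ₐ[Sg.𝒪] T0 Sg) (hβ₀ : Function.Bijective β₀)
    (hTℓ : ∀ (ℓ : ℕ) (hℓ : ℓ.Prime) (hℓN : ¬ ℓ ∣ lvlTw P Sg.S)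
      (hℓS : ℓ ∉ (↑(Sg.S ∪ P.Aux) : Set ℕ)) (hi : ℓ.Prime ∧ ¬ ℓ ∣ M₀ P ∅ ∧ ℓ ≠ P.p),
      β₀ (heckeLocal.π _ _ _ _ (heckeAlgebra.T hℓ hℓN hℓS)) =
        (H0 Sg).tX Set.univ (Sum.inl ⟨ℓ, hi⟩) (Set.mem_univ _))
    [hfree : Module.Free (T0 Sg) (M0 Sg)]
    (hCI : IsCI Sg.𝒪 (Sg.F Sg.S (Sg.hgoodS hH.hT)).R)
    [Module.IsTorsionFree Sg.𝒪 (Sg.F Sg.S (Sg.hgoodS hH.hT)).R]
    (π₀ : (Sg.F Sg.S (Sg.hgoodS hH.hT)).R →ₐ[Sg.𝒪] Sg.𝒪) {ϖ : Sg.𝒪} (hϖ : Irreducible ϖ)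
    (hfin : Module.length Sg.𝒪
      (RingHom.ker (π₀ : (Sg.F Sg.S (Sg.hgoodS hH.hT)).R →+* Sg.𝒪)).Cotangent ≠ ⊤)
    (ev : ℕ → Sg.𝒪)
    (hev : ∀ (ℓ : ℕ) (hℓ : ℓ.Prime) (hℓN : ¬ ℓ ∣ lvlTw P Sg.S)
      (hℓS : ℓ ∉ (↑(Sg.S ∪ P.Aux) : Set ℕ)),
      π₀ (heckeLocal.π _ _ _ _ (heckeAlgebra.T hℓ hℓN hℓS)) = ev ℓ)
    (M' : ℕ) [NeZero M'] [Fintype (SL(2, ℤ) ⧸ Gamma0 M')] (hM' : M' = M₀ P ∅)
    (Pd : ℕ → Prop) (hPd : ∀ ℓ : ℕ, ℓ.Prime → ¬ ℓ ∣ M' → (Pd ℓ ↔ ℓ = P.p))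
    (hnew : ∀ (r M'' : ℕ) [NeZero M''], r.Prime → M' = M'' * r → ¬ r ∣ M'' → ¬ Pd r →
      ¬ ∃ χ : heckeAlgebra M'' 2 (↑(Sg.S ∪ P.Aux) : Set ℕ) →+* ResidueField Sg.𝒪,
        ∀ (ℓ : ℕ) (hℓ : ℓ.Prime) (hℓM : ¬ ℓ ∣ M') (hℓM'' : ¬ ℓ ∣ M'')
          (hℓS : ℓ ∉ (↑(Sg.S ∪ P.Aux) : Set ℕ)),
          χ (heckeAlgebra.T hℓ hℓM'' hℓS) = residue Sg.𝒪 (ev ℓ)) :
    ∃ ev₀ : ℕ → Sg.𝒪, (∀ ℓ : ℕ, ¬ ℓ ∣ M' → ev₀ ℓ = ev ℓ) ∧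
      (∀ r : ℕ, r.Prime → r ∣ M' → ¬ Pd r → ev₀ r * ev₀ r = 1) ∧
      eigO Sg.𝒪 M' Pd ev₀ ≠ ⊥ ∧
      Module.finrank Sg.𝒪 (eigO Sg.𝒪 M' Pd ev₀) • Module.length Sg.𝒪 (Sg.𝒪 ⧸ congIdeal π₀) =
        Module.length Sg.𝒪 (MO Sg.𝒪 M' ⧸
          (eigO Sg.𝒪 M' Pd ev₀ ⊔ rorth (formOw Sg.𝒪 M') (eigO Sg.𝒪 M' Pd ev₀))) := by
  obtain ⟨ev₀, h1, h2, h3⟩ := exists_signs Sg hH hgood0 β₀ hβ₀ hTℓ hCI π₀ hϖ hfin ev hev M' hM'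
    Pd hPd hnew
  have hdvd : ∀ ℓ : ℕ, ℓ.Prime → ¬ ℓ ∣ lvlTw P Sg.S → ℓ ∉ (↑(Sg.S ∪ P.Aux) : Set ℕ) →
      ¬ ℓ ∣ M' := by
    intro ℓ hℓ _ hℓS hℓM
    apply hℓS
    rw [hM', M₀_empty] at hℓM
    rcases Finset.mem_union.1 (P.R0_primes ℓ hℓ hℓM) with h | h
    · exact Finset.mem_coe.2 (Finset.mem_union_left _ (Finset.mem_union_left _ h))
    · exact Finset.mem_coe.2 (Finset.mem_union_right _ h)
  refine ⟨ev₀, h1, h2, h3, ?_⟩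
  refine hs6 Sg hH hgood0 β₀ hβ₀ hTℓ hCI π₀ hϖ hfin ev₀
    (fun ℓ hℓ hℓN hℓS => (hev ℓ hℓ hℓN hℓS).trans (h1 ℓ (hdvd ℓ hℓ hℓN hℓS)).symm)
    M' hM' Pd hPd ?_
  intro r M'' _ hr hMr hrM'' hrP
  refine ⟨h2 r hr (hMr ▸ Dvd.intro_left M'' rfl) hrP, ?_⟩
  rintro ⟨χ, hχ⟩
  refine hnew r M'' hr hMr hrM'' hrP ⟨χ, fun ℓ hℓ hℓM hℓM'' hℓS => ?_⟩
  rw [hχ ℓ hℓ hℓM hℓM'' hℓS, h1 ℓ hℓM]

end Signs

end Fermat.Agent.S59lib.Min.HS6
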