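import Mathlib
import Fermat.Agent.S59lib.Min.HS6.Signs
import Fermat.Agent.S59lib.HS.Chain

/-!
# Project I / HS6 : the base of the chain, in the vocabulary of `HS/Chain`

`hs6` and `hs6_signs` restated with helper2's `HS.congL`:
`finrank (eigO 𝒪 R0 Pd ev) * length (𝒪 ⧸ η_{π₀}) = congL 𝒪 R0 Pd ev`,
which is the hypothesis `hbase` of `HS.hs_sigma` / `HS.congL_chain_le` with `c₀ := length (𝒪 ⧸ η_{π₀})`.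
-/

set_option autoImplicit false
set_option linter.unusedSectionVars false
set_option linter.unusedVariables false
set_option linter.style.haveILetI false

noncomputable section

namespace Fermat.Agent.S59lib.Min.HS6

open CongruenceSubgroup Matrix.SpecialLinearGroup
open Fermat.Agent.S59lib.N3 Fermat.Agent.S59lib.Hub Fermat.Agent.S59lib.NumCrit
open Fermat.Agent.S59lib.HS IsLocalRing CuspForm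
open scoped MatrixGroups

section Base

variable {P : Ctx} (Sg : SideGal P (∅ : Finset ℕ))

/-- **HS6 in the vocabulary of the chain**: the hypothesis `hbase` of `HS.hs_sigma`, as an equality. -/
theorem hs6_congL (hH : HubHyp Sg) (hgood0 : (H0 Sg).Good P.p)
    (β₀ : (Sg.F Sg.S (Sg.hgoodS hH.hT)).R →ₐ[Sg.𝒪] T0 Sg) (hβ₀ : Function.Bijective β₀)
    (hTℓ : ∀ (ℓ : ℕ) (hℓ : ℓ.Prime) (hℓN : ¬ ℓ ∣ lvlTw P Sg.S)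
      (hℓS : ℓ ∉ (↑(Sg.S ∪ P.Aux) : Set ℕ)) (hi : ℓ.Prime ∧ ¬ ℓ ∣ M₀ P ∅ ∧ ℓ ≠ P.p),
      β₀ (heckeLocal.π _ _ _ _ (heckeAlgebra.T hℓ hℓN hℓS)) =
        (H0 Sg).tX Set.univ (Sum.inl ⟨ℓ, hi⟩) (Set.mem_univ _))
    [hfree : Module.Free (T0 Sg) (M0 Sg)]
    (hCI : IsCI Sg.𝒪 (Sg.F Sg.S (Sg.hgoodS hH.hT)).R)
    [Module.IsTorsionFree Sg.𝒪 (Sg.F Sg.S (Sg.hgoodS hH.hT)).R]
    (π₀ : (Sg.F Sg.S (Sg.hgoodS hH.hT)).R →ₐ[Sg.𝒪] Sg.𝒪) {ϖ : Sg.𝒪} (hϖ : Irreducible ϖ)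
    (hfin : Module.length Sg.𝒪
      (RingHom.ker (π₀ : (Sg.F Sg.S (Sg.hgoodS hH.hT)).R →+* Sg.𝒪)).Cotangent ≠ ⊤)
    (ev : ℕ → Sg.𝒪)
    (hev : ∀ (ℓ : ℕ) (hℓ : ℓ.Prime) (hℓN : ¬ ℓ ∣ lvlTw P Sg.S)
      (hℓS : ℓ ∉ (↑(Sg.S ∪ P.Aux) : Set ℕ)),
      π₀ (heckeLocal.π _ _ _ _ (heckeAlgebra.T hℓ hℓN hℓS)) = ev ℓ)
    (M' : ℕ) [NeZero M'] (hM' : M' = M₀ P ∅)
    (Pd : ℕ → Prop) (hPd : ∀ ℓ : ℕ, ℓ.Prime → ¬ ℓ ∣ M' → (Pd ℓ ↔ ℓ = P.p))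
    (hone : ∀ (r M'' : ℕ) [NeZero M''], r.Prime → M' = M'' * r → ¬ r ∣ M'' → ¬ Pd r →
      ev r * ev r = 1 ∧
      ¬ ∃ χ : heckeAlgebra M'' 2 (↑(Sg.S ∪ P.Aux) : Set ℕ) →+* ResidueField Sg.𝒪,
        ∀ (ℓ : ℕ) (hℓ : ℓ.Prime) (hℓM : ¬ ℓ ∣ M') (hℓM'' : ¬ ℓ ∣ M'')
          (hℓS : ℓ ∉ (↑(Sg.S ∪ P.Aux) : Set ℕ)),
          χ (heckeAlgebra.T hℓ hℓM'' hℓS) = residue Sg.𝒪 (ev ℓ)) :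
    (Module.finrank Sg.𝒪 (eigO Sg.𝒪 M' Pd ev) : ℕ∞) *
        Module.length Sg.𝒪 (Sg.𝒪 ⧸ congIdeal π₀) = congL Sg.𝒪 M' Pd ev := by
  classical
  letI : Fintype (SL(2, ℤ) ⧸ Gamma0 M') := Fintype.ofFinite _
  have h := hs6 Sg hH hgood0 β₀ hβ₀ hTℓ hCI π₀ hϖ hfin ev hev M' hM' Pd hPd hone
  rw [congL_eq, ← h, nsmul_eq_mul]

/-- **HS6 with the sign choice, in the vocabulary of the chain** (`Aux = ∅`, or whenever the signs may be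
chosen at the level `R0` itself). -/
theorem hs6_signs_congL (hH : HubHyp Sg) (hgood0 : (H0 Sg).Good P.p)
    (β₀ : (Sg.F Sg.S (Sg.hgoodS hH.hT)).R →ₐ[Sg.𝒪] T0 Sg) (hβ₀ : Function.Bijective β₀)
    (hTℓ : ∀ (ℓ : ℕ) (hℓ : ℓ.Prime) (hℓN : ¬ ℓ ∣ lvlTw P Sg.S)
      (hℓS : ℓ ∉ (↑(Sg.S ∪ P.Aux) : Set ℕ)) (hi : ℓ.Prime ∧ ¬ ℓ ∣ M₀ P ∅ ∧ ℓ ≠ P.p),
      β₀ (heckeLocal.π _ _ _ _ (heckeAlgebra.T hℓ hℓN hℓS)) =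
        (H0 Sg).tX Set.univ (Sum.inl ⟨ℓ, hi⟩) (Set.mem_univ _))
    [hfree : Module.Free (T0 Sg) (M0 Sg)]
    (hCI : IsCI Sg.𝒪 (Sg.F Sg.S (Sg.hgoodS hH.hT)).R)
    [Module.IsTorsionFree Sg.𝒪 (Sg.F Sg.S (Sg.hgoodS hH.hT)).R]
    (π₀ : (Sg.F Sg.S (Sg.hgoodS hH.hT)).R →ₐ[Sg.𝒪] Sg.𝒪) {ϖ : Sg.𝒪} (hϖ : Irreducible ϖ)
    (hfin : Module.length Sg.𝒪
      (RingHom.ker (π₀ : (Sg.F Sg.S (Sg.hgoodS hH.hT)).R →+* Sg.𝒪)).Cotangent ≠ ⊤)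
    (ev : ℕ → Sg.𝒪)
    (hev : ∀ (ℓ : ℕ) (hℓ : ℓ.Prime) (hℓN : ¬ ℓ ∣ lvlTw P Sg.S)
      (hℓS : ℓ ∉ (↑(Sg.S ∪ P.Aux) : Set ℕ)),
      π₀ (heckeLocal.π _ _ _ _ (heckeAlgebra.T hℓ hℓN hℓS)) = ev ℓ)
    (M' : ℕ) [NeZero M'] (hM' : M' = M₀ P ∅)
    (Pd : ℕ → Prop) (hPd : ∀ ℓ : ℕ, ℓ.Prime → ¬ ℓ ∣ M' → (Pd ℓ ↔ ℓ = P.p))
    (hnew : ∀ (r M'' : ℕ) [NeZero M''], r.Prime → M' = M'' * r → ¬ r ∣ M'' → ¬ Pd r →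
      ¬ ∃ χ : heckeAlgebra M'' 2 (↑(Sg.S ∪ P.Aux) : Set ℕ) →+* ResidueField Sg.𝒪,
        ∀ (ℓ : ℕ) (hℓ : ℓ.Prime) (hℓM : ¬ ℓ ∣ M') (hℓM'' : ¬ ℓ ∣ M'')
          (hℓS : ℓ ∉ (↑(Sg.S ∪ P.Aux) : Set ℕ)),
          χ (heckeAlgebra.T hℓ hℓM'' hℓS) = residue Sg.𝒪 (ev ℓ)) :
    ∃ ev₀ : ℕ → Sg.𝒪, (∀ ℓ : ℕ, ¬ ℓ ∣ M' → ev₀ ℓ = ev ℓ) ∧
      (∀ r : ℕ, r.Prime → r ∣ M' → ¬ Pd r → ev₀ r * ev₀ r = 1) ∧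
      eigO Sg.𝒪 M' Pd ev₀ ≠ ⊥ ∧
      (Module.finrank Sg.𝒪 (eigO Sg.𝒪 M' Pd ev₀) : ℕ∞) *
        Module.length Sg.𝒪 (Sg.𝒪 ⧸ congIdeal π₀) = congL Sg.𝒪 M' Pd ev₀ := by
  classical
  letI : Fintype (SL(2, ℤ) ⧸ Gamma0 M') := Fintype.ofFinite _
  obtain ⟨ev₀, h1, h2, h3, h4⟩ := hs6_signs Sg hH hgood0 β₀ hβ₀ hTℓ hCI π₀ hϖ hfin ev hev M' hM'
    Pd hPd hnew
  refine ⟨ev₀, h1, h2, h3, ?_⟩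
  rw [congL_eq, ← h4, nsmul_eq_mul]

end Base

end Fermat.Agent.S59lib.Min.HS6
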