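import Mathlib
import Fermat.Agent.S59lib.Hub.RTAsm
import Fermat.Agent.S59lib.Min.HubOut
import Fermat.Agent.S59lib.Min.HS6.Base

/-!
# Project I / HS6 : `hbase` at the hub, from modularity and the structural properties of the type

`hbase_hub` : `hs6_congL` fed by `Hub.sideLevels_empty_of` and `Min.hub_min` (the minimal `R = 𝕋` theorem), for an
arbitrary augmentation `π₀` of `𝕋_∅ = Tmin Sg`:
`finrank (eigO 𝒪 R0 Pd ev) * length (𝒪 ⧸ η_{π₀}) = congL 𝒪 R0 Pd ev`.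
`hbase_signs_hub` : the same with the sign choice at the level `R0` built in (`hs6_signs_congL`).
`hubHyp_of` : `HubHyp Sg` from modularity.
-/

set_option autoImplicit false
set_option linter.unusedSectionVars false
set_option linter.unusedVariables false
set_option linter.style.haveILetI false

noncomputable section

namespace Fermat.Agent.S59lib.Min.HS6

open CongruenceSubgroup Matrix.SpecialLinearGroup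
open Fermat.Agent.S43lib.Mod4 Fermat.Agent.S43lib.Mod4.Hub
open Fermat.Agent.S59lib.N3 Fermat.Agent.S59lib.Hub Fermat.Agent.S59lib.NumCrit
open Fermat.Agent.S59lib.HS IsLocalRing CuspForm
open scoped MatrixGroups

section HubBase

variable {P : Ctx} (Sg : SideGal P (∅ : Finset ℕ))

/-- the hub hypotheses from modularity -/
theorem hubHyp_of {N : ℕ} (hN : N ∣ M₀ P ∅) (hmod : P.IsMod N) : HubHyp Sg := by
  obtain ⟨hH, -⟩ := sideLevels_empty_of Sg hN hmod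
  exact hH

set_option maxHeartbeats 1000000 in
set_option synthInstance.maxHeartbeats 400000 in
/-- **`hbase` at the hub**: the congruence module of the eigenlattice of ANY augmentation `π₀` of `𝕋_∅`, for any
admissible choice `ev` of the values at the kept primes of `R0`. -/
theorem hbase_hub {N : ℕ} (hN : N ∣ M₀ P ∅) (hmod : P.IsMod N) (hty : TypeOK P Sg)
    (π₀ : (Tmin Sg).R →ₐ[Sg.𝒪] Sg.𝒪) (ev : ℕ → Sg.𝒪)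
    (hev : ∀ (ℓ : ℕ) (hℓ : ℓ.Prime) (hℓN : ¬ ℓ ∣ lvlTw P Sg.S)
      (hℓS : ℓ ∉ (↑(Sg.S ∪ P.Aux) : Set ℕ)),
      π₀ (heckeLocal.π _ _ _ _ (heckeAlgebra.T hℓ hℓN hℓS)) = ev ℓ)
    (M' : ℕ) [NeZero M'] (hM' : M' = M₀ P ∅)
    (Pd : ℕ → Prop) (hPd : ∀ ℓ : ℕ, ℓ.Prime → ¬ ℓ ∣ M' → (Pd ℓ ↔ ℓ = P.p))
    (hone : ∀ (r M'' : ℕ) [NeZero M''], r.Prime → M' = M'' * r → ¬ r ∣ M'' → ¬ Pd r →
      ev r * ev r = 1 ∧
      ¬ ∃ χ : heckeAlgebra M'' 2 (↑(Sg.S ∪ P.Aux) : Set ℕ) →+* ResidueField Sg.𝒪,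
        ∀ (ℓ : ℕ) (hℓ : ℓ.Prime) (hℓM : ¬ ℓ ∣ M') (hℓM'' : ¬ ℓ ∣ M'')
          (hℓS : ℓ ∉ (↑(Sg.S ∪ P.Aux) : Set ℕ)),
          χ (heckeAlgebra.T hℓ hℓM'' hℓS) = residue Sg.𝒪 (ev ℓ)) :
    (Module.finrank Sg.𝒪 (eigO Sg.𝒪 M' Pd ev) : ℕ∞) *
        Module.length Sg.𝒪 (Sg.𝒪 ⧸ congIdeal π₀) = congL Sg.𝒪 M' Pd ev := by
  obtain ⟨hH, d, hd, hgood0, β₀, hβ₀s, hΛ, hTℓ, hlev⟩ := sideLevels_empty_of Sg hN hmod
  obtain ⟨hβ₀b, hfree, hCI, -⟩ := Min.hub_min Sg hH d hd hgood0 β₀ hβ₀s hΛ hlev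
    (fun S' _ A B _ _ => hty.joins S' A B)
    (fun S' h _ _ _ _ ρ' hρ' => hty.mono h.1 ρ' hρ')
    (fun ρ' hρ' q hq hqS => hty.unr ρ' hρ' q hq (fun h => hqS (Finset.mem_union_left _ h)))
  obtain ⟨ϖ, hϖ⟩ := IsDiscreteValuationRing.exists_irreducible Sg.𝒪
  haveI := hfree
  exact hs6_congL Sg hH hgood0 β₀ hβ₀b hTℓ hCI π₀ hϖ (length_cotangent_F_ne_top Sg _ _ π₀) ev hev
    M' hM' Pd hPd hone

set_option maxHeartbeats 1000000 in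
set_option synthInstance.maxHeartbeats 400000 in
/-- **`hbase` at the hub with the sign choice at the level `R0`** (for `Aux = ∅`, or whenever the signs may be
chosen at the level `R0` itself): `ev₀`, `ev₀ r ^ 2 = 1`, `eigO ≠ ⊥` and `hbase` in one call. -/
theorem hbase_signs_hub {N : ℕ} (hN : N ∣ M₀ P ∅) (hmod : P.IsMod N) (hty : TypeOK P Sg)
    (π₀ : (Tmin Sg).R →ₐ[Sg.𝒪] Sg.𝒪) (ev : ℕ → Sg.𝒪)
    (hev : ∀ (ℓ : ℕ) (hℓ : ℓ.Prime) (hℓN : ¬ ℓ ∣ lvlTw P Sg.S)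
      (hℓS : ℓ ∉ (↑(Sg.S ∪ P.Aux) : Set ℕ)),
      π₀ (heckeLocal.π _ _ _ _ (heckeAlgebra.T hℓ hℓN hℓS)) = ev ℓ)
    (M' : ℕ) [NeZero M'] (hM' : M' = M₀ P ∅)
    (Pd : ℕ → Prop) (hPd : ∀ ℓ : ℕ, ℓ.Prime → ¬ ℓ ∣ M' → (Pd ℓ ↔ ℓ = P.p))
    (hnew : ∀ (r M'' : ℕ) [NeZero M''], r.Prime → M' = M'' * r → ¬ r ∣ M'' → ¬ Pd r →
      ¬ ∃ χ : heckeAlgebra M'' 2 (↑(Sg.S ∪ P.Aux) : Set ℕ) →+* ResidueField Sg.𝒪,
        ∀ (ℓ : ℕ) (hℓ : ℓ.Prime) (hℓM : ¬ ℓ ∣ M') (hℓM'' : ¬ ℓ ∣ M'')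
          (hℓS : ℓ ∉ (↑(Sg.S ∪ P.Aux) : Set ℕ)),
          χ (heckeAlgebra.T hℓ hℓM'' hℓS) = residue Sg.𝒪 (ev ℓ)) :
    ∃ ev₀ : ℕ → Sg.𝒪, (∀ ℓ : ℕ, ¬ ℓ ∣ M' → ev₀ ℓ = ev ℓ) ∧
      (∀ r : ℕ, r.Prime → r ∣ M' → ¬ Pd r → ev₀ r * ev₀ r = 1) ∧
      eigO Sg.𝒪 M' Pd ev₀ ≠ ⊥ ∧
      (Module.finrank Sg.𝒪 (eigO Sg.𝒪 M' Pd ev₀) : ℕ∞) *
        Module.length Sg.𝒪 (Sg.𝒪 ⧸ congIdeal π₀) = congL Sg.𝒪 M' Pd ev₀ := by
  obtain ⟨hH, d, hd, hgood0, β₀, hβ₀s, hΛ, hTℓ, hlev⟩ := sideLevels_empty_of Sg hN hmod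
  obtain ⟨hβ₀b, hfree, hCI, -⟩ := Min.hub_min Sg hH d hd hgood0 β₀ hβ₀s hΛ hlev
    (fun S' _ A B _ _ => hty.joins S' A B)
    (fun S' h _ _ _ _ ρ' hρ' => hty.mono h.1 ρ' hρ')
    (fun ρ' hρ' q hq hqS => hty.unr ρ' hρ' q hq (fun h => hqS (Finset.mem_union_left _ h)))
  obtain ⟨ϖ, hϖ⟩ := IsDiscreteValuationRing.exists_irreducible Sg.𝒪
  haveI := hfree
  exact hs6_signs_congL Sg hH hgood0 β₀ hβ₀b hTℓ hCI π₀ hϖ (length_cotangent_F_ne_top Sg _ _ π₀)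
    ev hev M' hM' Pd hPd hnew

end HubBase

end Fermat.Agent.S59lib.Min.HS6
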